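import Mathlib

/-!
# S41 / CSP block, Step 3: the finite-field lemma

Let `r`, `p` be primes with `p ∤ r - 1`, `h₀ ≠ 1` a unit of `ZMod r`, and
`ψ : (ZMod r)ˣ → ZMod p` a function with

* `ψ 1 = 0`,
* `ψ (h₀ * δ) = ψ δ`,
* (E) for all units `ξ s t₁ t₂` with `t₁ = 1 - s`, `t₂ = 1 - h₀ s`:
  `ψ (ξ h₀ s / t₂) - ψ (ξ / t₂) = ψ (ξ s / t₁) - ψ (ξ / t₁)`.

Then `ψ = 0`.  (Fourier analysis on `(ZMod r)ˣ` with values in the algebraic closure of `ZMod p`
plus an elementary count.)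
-/

set_option autoImplicit false

open scoped BigOperators
open Finset

namespace Fermat.Agent.S41lib.CSP

section Count

variable {r : ℕ} [Fact r.Prime]

/-- The Möbius involution `s ↦ (1 - s) / (1 - h s)`. -/
noncomputable def moeb (h s : ZMod r) : ZMod r := (1 - s) * (1 - h * s)⁻¹

/-- The set `S = 𝔽_r ∖ {0, 1, 1/h}`. -/
noncomputable def goodSet (h : ZMod r) : Finset (ZMod r) :=
  univ.filter fun s => s ≠ 0 ∧ s ≠ 1 ∧ h * s ≠ 1

lemma mem_goodSet {h s : ZMod r} : s ∈ goodSet h ↔ s ≠ 0 ∧ s ≠ 1 ∧ h * s ≠ 1 := by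
  simp [goodSet]

lemma moeb_mem_goodSet {h s : ZMod r} (hh : h ≠ 1) (hs : s ∈ goodSet h) :
    moeb h s ∈ goodSet h := by
  rw [mem_goodSet] at hs ⊢
  obtain ⟨hs0, hs1, hs2⟩ := hs
  have h1 : (1 : ZMod r) - s ≠ 0 := sub_ne_zero.mpr (Ne.symm hs1)
  have h2 : (1 : ZMod r) - h * s ≠ 0 := sub_ne_zero.mpr (Ne.symm hs2)
  refine ⟨mul_ne_zero h1 (inv_ne_zero h2), ?_, ?_⟩
  · intro hEq
    have : (1 : ZMod r) - s = 1 - h * s := by
      have := congrArg (· * (1 - h * s)) hEq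
      simpa [moeb, mul_assoc, inv_mul_cancel₀ h2] using this
    have h3 : (h - 1) * s = 0 := by linear_combination this
    rcases mul_eq_zero.mp h3 with h4 | h4
    · exact hh (sub_eq_zero.mp h4)
    · exact hs0 h4
  · intro hEq
    have : h * (1 - s) = 1 - h * s := by
      have := congrArg (· * (1 - h * s)) hEq
      simpa [moeb, mul_assoc, inv_mul_cancel₀ h2] using this
    exact hh (by linear_combination this)

lemma moeb_moeb {h s : ZMod r} (hh : h ≠ 1) (hs : s ∈ goodSet h) :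
    moeb h (moeb h s) = s := by
  rw [mem_goodSet] at hs
  obtain ⟨hs0, hs1, hs2⟩ := hs
  have h2 : (1 : ZMod r) - h * s ≠ 0 := sub_ne_zero.mpr (Ne.symm hs2)
  have h3 : (1 : ZMod r) - h ≠ 0 := sub_ne_zero.mpr (Ne.symm hh)
  unfold moeb
  have hX : (1 - h * s) * (1 - h * s)⁻¹ = 1 := mul_inv_cancel₀ h2
  have e1 : (1 : ZMod r) - (1 - s) * (1 - h * s)⁻¹ = (s * (1 - h)) * (1 - h * s)⁻¹ := by
    linear_combination (-1 : ZMod r) * hX
  have e2 : (1 : ZMod r) - h * ((1 - s) * (1 - h * s)⁻¹) = (1 - h) * (1 - h * s)⁻¹ := by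
    linear_combination (-1 : ZMod r) * hX
  rw [e1, e2, mul_inv, inv_inv]
  calc s * (1 - h) * (1 - h * s)⁻¹ * ((1 - h)⁻¹ * (1 - h * s))
      = s * ((1 - h) * (1 - h)⁻¹) * ((1 - h * s)⁻¹ * (1 - h * s)) := by ring
    _ = s := by rw [mul_inv_cancel₀ h3, inv_mul_cancel₀ h2]; ring

lemma card_goodSet {h : ZMod r} (hh0 : h ≠ 0) (hh : h ≠ 1) : (goodSet h).card + 3 = r := by
  classical
  have hS : goodSet h = univ \ {0, 1, h⁻¹} := by
    ext s
    simp only [mem_goodSet, mem_sdiff, mem_univ, true_and, mem_insert, mem_singleton, not_or]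
    constructor
    · rintro ⟨a, b, c⟩
      refine ⟨a, b, ?_⟩
      rintro rfl
      exact c (mul_inv_cancel₀ hh0)
    · rintro ⟨a, b, c⟩
      refine ⟨a, b, ?_⟩
      intro hEq
      exact c (eq_inv_of_mul_eq_one_right hEq)
  have h3 : ({0, 1, h⁻¹} : Finset (ZMod r)).card = 3 := by
    rw [card_insert_of_notMem, card_insert_of_notMem, card_singleton]
    · simp only [mem_singleton]
      intro hEq
      exact hh (by simpa using (congrArg (·⁻¹) hEq).symm)
    · simp only [mem_insert, mem_singleton, not_or]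
      exact ⟨zero_ne_one, (inv_ne_zero hh0).symm⟩
  rw [hS, card_sdiff_of_subset (subset_univ _), h3, card_univ, ZMod.card]
  have : 3 ≤ r := by
    have := card_le_univ ({0, 1, h⁻¹} : Finset (ZMod r))
    rwa [h3, ZMod.card] at this
  omega

/-- The counting step: a multiplicative character of `ZMod r` which is trivial at `h ≠ 0, 1` and
such that every `s ∉ {0, 1, 1/h}` satisfies `χ s = 1` or `χ ((1 - s)/(1 - h s)) = 1` is trivial. -/
lemma mulChar_eq_one_of_cover {K : Type*} [Field K] (χ : MulChar (ZMod r) K) {h : ZMod r}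
    (hh0 : h ≠ 0) (hh : h ≠ 1) (hχh : χ h = 1)
    (hcov : ∀ s ∈ goodSet h, χ s = 1 ∨ χ (moeb h s) = 1) : χ = 1 := by
  classical
  by_contra hne
  obtain ⟨b, hb⟩ := MulChar.ne_one_iff.mp hne
  set Kf : Finset (ZMod r) := univ.filter fun s => χ s = 1 with hKf
  have hKf_mem : ∀ s, s ∈ Kf ↔ χ s = 1 := fun s => by simp [hKf]
  have hχ0 : χ (0 : ZMod r) = 0 := MulChar.map_zero χ
  have hKf_ne : ∀ s ∈ Kf, s ≠ 0 := by
    intro s hs h0
    rw [hKf_mem, h0, hχ0] at hs
    exact zero_ne_one hs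
  -- 2 |Kf| + 1 ≤ r
  have hK2 : 2 * Kf.card + 1 ≤ r := by
    have hb0 : (b : ZMod r) ≠ 0 := b.ne_zero
    have hinj : Function.Injective fun s : ZMod r => (b : ZMod r) * s :=
      fun x y hxy => mul_left_cancel₀ hb0 hxy
    have hdisj : Disjoint Kf (Kf.image fun s => (b : ZMod r) * s) := by
      rw [Finset.disjoint_left]
      intro s hs hs'
      obtain ⟨s', hs'K, rfl⟩ := Finset.mem_image.mp hs'
      rw [hKf_mem] at hs hs'K
      rw [map_mul, hs'K, mul_one] at hs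
      exact hb hs
    have hsub : Kf ∪ (Kf.image fun s => (b : ZMod r) * s) ⊆ univ.erase (0 : ZMod r) := by
      intro s hs
      rw [Finset.mem_erase]
      refine ⟨?_, mem_univ _⟩
      rcases Finset.mem_union.mp hs with hs | hs
      · exact hKf_ne s hs
      · obtain ⟨s', hs'K, rfl⟩ := Finset.mem_image.mp hs
        exact mul_ne_zero hb0 (hKf_ne s' hs'K)
    have hcard := Finset.card_le_card hsub
    rw [Finset.card_union_of_disjoint hdisj, Finset.card_image_of_injective _ hinj,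
      Finset.card_erase_of_mem (mem_univ _), card_univ, ZMod.card] at hcard
    have : 1 ≤ r := (Fact.out : r.Prime).one_lt.le
    omega
  -- A1
  set A1 : Finset (ZMod r) := (goodSet h).filter fun s => χ s = 1 with hA1
  have hχhinv : χ h⁻¹ = 1 := by
    have : χ h⁻¹ * χ h = 1 := by rw [← map_mul, inv_mul_cancel₀ hh0, map_one]
    rwa [hχh, mul_one] at this
  have hA1K : A1.card + 2 ≤ Kf.card := by
    have h1 : (1 : ZMod r) ∉ insert h⁻¹ A1 := by
      simp only [Finset.mem_insert, not_or]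
      refine ⟨?_, ?_⟩
      · intro hEq
        exact hh (by simpa using (congrArg (·⁻¹) hEq).symm)
      · intro hmem
        have := (mem_goodSet.mp (Finset.mem_filter.mp hmem).1).2.1
        exact this rfl
    have h2 : h⁻¹ ∉ A1 := by
      intro hmem
      have := (mem_goodSet.mp (Finset.mem_filter.mp hmem).1).2.2
      exact this (mul_inv_cancel₀ hh0)
    have hsub : insert (1 : ZMod r) (insert h⁻¹ A1) ⊆ Kf := by
      intro s hs
      rw [hKf_mem]
      rcases Finset.mem_insert.mp hs with rfl | hs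
      · exact map_one χ
      rcases Finset.mem_insert.mp hs with rfl | hs
      · exact hχhinv
      · exact (Finset.mem_filter.mp hs).2
    have := Finset.card_le_card hsub
    rwa [Finset.card_insert_of_notMem h1, Finset.card_insert_of_notMem h2] at this
  -- covering
  have hSsub : goodSet h ⊆ A1 ∪ (goodSet h).filter fun s => moeb h s ∈ A1 := by
    intro s hs
    rcases hcov s hs with h1 | h1
    · exact Finset.mem_union_left _ (Finset.mem_filter.mpr ⟨hs, h1⟩)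
    · refine Finset.mem_union_right _ (Finset.mem_filter.mpr ⟨hs, ?_⟩)
      exact Finset.mem_filter.mpr ⟨moeb_mem_goodSet hh hs, h1⟩
  have hB : ((goodSet h).filter fun s => moeb h s ∈ A1).card ≤ A1.card := by
    apply Finset.card_le_card_of_injOn (moeb h)
    · intro s hs
      exact (Finset.mem_filter.mp hs).2
    · intro x hx y hy hxy
      have hx' := (Finset.mem_filter.mp hx).1
      have hy' := (Finset.mem_filter.mp hy).1
      rw [← moeb_moeb hh hx', ← moeb_moeb hh hy', hxy]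
  have hS := Finset.card_le_card hSsub
  have hU := Finset.card_union_le A1 ((goodSet h).filter fun s => moeb h s ∈ A1)
  have hcardS := card_goodSet hh0 hh
  omega

end Count

section Fourier

variable {r : ℕ} [Fact r.Prime]

/-- Fourier step over a general coefficient field with enough roots of unity. -/
theorem fourier_const {K : Type*} [Field K] [HasEnoughRootsOfUnity K (Monoid.exponent (ZMod r)ˣ)]
    (hφK : ((r.totient : ℕ) : K) ≠ 0) (Ψ : (ZMod r)ˣ → K) (h₀ : (ZMod r)ˣ) (hh₀ : h₀ ≠ 1)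
    (hinv : ∀ δ, Ψ (h₀ * δ) = Ψ δ)
    (hE' : ∀ w s t₁ t₂ : (ZMod r)ˣ, (t₁ : ZMod r) = 1 - s → (t₂ : ZMod r) = 1 - h₀ * s →
      Ψ ((s * (t₁ * t₂⁻¹)) * w) - Ψ ((t₁ * t₂⁻¹) * w) = Ψ (s * w) - Ψ w) :
    ∀ δ, Ψ δ = Ψ 1 := by
  classical
  have hr : r.Prime := Fact.out
  have : NeZero r := ⟨hr.ne_zero⟩
  -- Fourier coefficients
  set c : DirichletCharacter K r → K :=
    fun χ => ∑ a : (ZMod r)ˣ, χ ((a⁻¹ : (ZMod r)ˣ) : ZMod r) * Ψ a with hc_def
  have hT : ∀ (χ : DirichletCharacter K r) (t : (ZMod r)ˣ),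
      ∑ a : (ZMod r)ˣ, χ ((a⁻¹ : (ZMod r)ˣ) : ZMod r) * Ψ (t * a) = χ (t : ZMod r) * c χ := by
    intro χ t
    have := Equiv.sum_comp (Equiv.mulLeft t)
      (fun a : (ZMod r)ˣ => χ (((t⁻¹ * a)⁻¹ : (ZMod r)ˣ) : ZMod r) * Ψ a)
    simp only [Equiv.coe_mulLeft, inv_mul_cancel_left] at this
    rw [this, hc_def, Finset.mul_sum]
    refine Finset.sum_congr rfl fun a _ => ?_
    rw [mul_inv_rev, inv_inv, Units.val_mul, map_mul]
    ring
  have hInv : ∀ b : (ZMod r)ˣ, ((r.totient : ℕ) : K) * Ψ b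
      = ∑ χ : DirichletCharacter K r, c χ * χ (b : ZMod r) := by
    intro b
    have h2 : ∀ a : (ZMod r)ˣ, ∑ χ : DirichletCharacter K r,
        χ ((a⁻¹ : (ZMod r)ˣ) : ZMod r) * χ (b : ZMod r)
          = if a = b then ((r.totient : ℕ) : K) else 0 := by
      intro a
      have := DirichletCharacter.sum_char_inv_mul_char_eq K (n := r) a.isUnit (b : ZMod r)
      rw [Units.val_inv_eq_inv_val]
      rw [this]
      simp only [Units.val_inj]
    calc ((r.totient : ℕ) : K) * Ψ b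
        = ∑ a : (ZMod r)ˣ, (if a = b then ((r.totient : ℕ) : K) else 0) * Ψ a := by
          simp
      _ = ∑ a : (ZMod r)ˣ, (∑ χ : DirichletCharacter K r,
            χ ((a⁻¹ : (ZMod r)ˣ) : ZMod r) * χ (b : ZMod r)) * Ψ a := by
          refine Finset.sum_congr rfl fun a _ => ?_
          rw [h2]
      _ = ∑ a : (ZMod r)ˣ, ∑ χ : DirichletCharacter K r,
            χ ((a⁻¹ : (ZMod r)ˣ) : ZMod r) * χ (b : ZMod r) * Ψ a := by
          refine Finset.sum_congr rfl fun a _ => ?_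
          rw [Finset.sum_mul]
      _ = ∑ χ : DirichletCharacter K r, ∑ a : (ZMod r)ˣ,
            χ ((a⁻¹ : (ZMod r)ˣ) : ZMod r) * χ (b : ZMod r) * Ψ a := Finset.sum_comm
      _ = ∑ χ : DirichletCharacter K r, c χ * χ (b : ZMod r) := by
          refine Finset.sum_congr rfl fun χ _ => ?_
          rw [hc_def, Finset.sum_mul]
          refine Finset.sum_congr rfl fun a _ => ?_
          ring
  -- characters with non-zero coefficient are trivial
  have hh₀' : (h₀ : ZMod r) ≠ 1 := fun h => hh₀ (Units.ext h)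
  have hc : ∀ χ : DirichletCharacter K r, c χ ≠ 0 → χ = 1 := by
    intro χ hcχ
    refine mulChar_eq_one_of_cover χ h₀.ne_zero hh₀' ?_ ?_
    · have h3 := hT χ h₀
      have h4 : ∑ a : (ZMod r)ˣ, χ ((a⁻¹ : (ZMod r)ˣ) : ZMod r) * Ψ (h₀ * a) = c χ := by
        rw [hc_def]
        refine Finset.sum_congr rfl fun a _ => ?_
        rw [hinv]
      rw [h4] at h3
      have : (χ (h₀ : ZMod r) - 1) * c χ = 0 := by rw [sub_mul, one_mul, ← h3, sub_self]
      rcases mul_eq_zero.mp this with h5 | h5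
      · exact sub_eq_zero.mp h5
      · exact absurd h5 hcχ
    · intro s hs
      obtain ⟨hs0, hs1, hs2⟩ := mem_goodSet.mp hs
      have ht1 : (1 : ZMod r) - s ≠ 0 := sub_ne_zero.mpr (Ne.symm hs1)
      have ht2 : (1 : ZMod r) - h₀ * s ≠ 0 := sub_ne_zero.mpr (Ne.symm hs2)
      obtain ⟨su, hsu⟩ : ∃ su : (ZMod r)ˣ, (su : ZMod r) = s := ⟨Units.mk0 s hs0, rfl⟩
      obtain ⟨t₁, ht₁⟩ : ∃ t : (ZMod r)ˣ, (t : ZMod r) = 1 - s := ⟨Units.mk0 _ ht1, rfl⟩
      obtain ⟨t₂, ht₂⟩ : ∃ t : (ZMod r)ˣ, (t : ZMod r) = 1 - h₀ * s := ⟨Units.mk0 _ ht2, rfl⟩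
      have hrel := fun w => hE' w su t₁ t₂ (by rw [ht₁, hsu]) (by rw [ht₂, hsu])
      -- sum against χ
      have hsum : ∑ w : (ZMod r)ˣ, χ ((w⁻¹ : (ZMod r)ˣ) : ZMod r) *
          (Ψ ((su * (t₁ * t₂⁻¹)) * w) - Ψ ((t₁ * t₂⁻¹) * w)) =
          ∑ w : (ZMod r)ˣ, χ ((w⁻¹ : (ZMod r)ˣ) : ZMod r) * (Ψ (su * w) - Ψ w) :=
        Finset.sum_congr rfl fun w _ => by rw [hrel w]
      have h6 : ∑ w : (ZMod r)ˣ, χ ((w⁻¹ : (ZMod r)ˣ) : ZMod r) * Ψ w = c χ := by rw [hc_def]
      simp only [mul_sub, Finset.sum_sub_distrib, hT, h6] at hsum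
      have hlam : ((t₁ * t₂⁻¹ : (ZMod r)ˣ) : ZMod r) = moeb (h₀ : ZMod r) s := by
        rw [Units.val_mul, Units.val_inv_eq_inv_val, ht₁, ht₂, moeb]
      rw [Units.val_mul, map_mul, hlam, hsu] at hsum
      have : (χ s - 1) * (χ (moeb (h₀ : ZMod r) s) - 1) * c χ = 0 := by
        linear_combination hsum
      rcases mul_eq_zero.mp this with h5 | h5
      · rcases mul_eq_zero.mp h5 with h7 | h7
        · exact Or.inl (sub_eq_zero.mp h7)
        · exact Or.inr (sub_eq_zero.mp h7)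
      · exact absurd h5 hcχ
  -- conclusion
  have hconst : ∀ b : (ZMod r)ˣ, ((r.totient : ℕ) : K) * Ψ b = c 1 := by
    intro b
    rw [hInv b, Finset.sum_eq_single (1 : DirichletCharacter K r)]
    · rw [MulChar.one_apply b.isUnit, mul_one]
    · intro χ _ hχ
      have : c χ = 0 := by
        by_contra h
        exact hχ (hc χ h)
      rw [this, zero_mul]
    · intro h
      exact absurd (Finset.mem_univ _) h
  intro δ
  have h2 : ((r.totient : ℕ) : K) * Ψ δ = ((r.totient : ℕ) : K) * Ψ 1 := by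
    rw [hconst δ, hconst 1]
  exact mul_left_cancel₀ hφK h2

variable {p : ℕ} [Fact p.Prime]

/-- **Finite-field lemma (Step 3 of CSP-lite).** -/
theorem eq_zero_of_relations (hpr : ¬ p ∣ r - 1) (ψ : (ZMod r)ˣ → ZMod p) (h₀ : (ZMod r)ˣ)
    (hh₀ : h₀ ≠ 1) (h1 : ψ 1 = 0) (hinv : ∀ δ, ψ (h₀ * δ) = ψ δ)
    (hE : ∀ ξ s t₁ t₂ : (ZMod r)ˣ, (t₁ : ZMod r) = 1 - s → (t₂ : ZMod r) = 1 - h₀ * s →
      ψ (ξ * (h₀ * s) * t₂⁻¹) - ψ (ξ * t₂⁻¹) = ψ (ξ * s * t₁⁻¹) - ψ (ξ * t₁⁻¹)) :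
    ∀ δ, ψ δ = 0 := by
  classical
  have hr : r.Prime := Fact.out
  have hcard : Nat.card (ZMod r)ˣ = r - 1 := by
    rw [Nat.card_eq_fintype_card, ZMod.card_units_eq_totient, Nat.totient_prime hr]
  have : NeZero ((Monoid.exponent (ZMod r)ˣ : ℕ) : ZMod p) := by
    refine ⟨fun h0 => hpr ?_⟩
    rw [ZMod.natCast_eq_zero_iff] at h0
    exact h0.trans (hcard ▸ Group.exponent_dvd_nat_card)
  have hφK : ((r.totient : ℕ) : AlgebraicClosure (ZMod p)) ≠ 0 := by
    rw [Nat.totient_prime hr]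
    intro h0
    rw [CharP.cast_eq_zero_iff (AlgebraicClosure (ZMod p)) p] at h0
    exact hpr h0
  -- E' : second difference relation
  have hE' : ∀ w s t₁ t₂ : (ZMod r)ˣ, (t₁ : ZMod r) = 1 - s → (t₂ : ZMod r) = 1 - h₀ * s →
      ψ ((s * (t₁ * t₂⁻¹)) * w) - ψ ((t₁ * t₂⁻¹) * w) = ψ (s * w) - ψ w := by
    intro w s t₁ t₂ ht₁ ht₂
    have := hE (w * t₁) s t₁ t₂ ht₁ ht₂
    have e1 : w * t₁ * (h₀ * s) * t₂⁻¹ = h₀ * ((s * (t₁ * t₂⁻¹)) * w) := by
      ac_rfl
    have e2 : w * t₁ * t₂⁻¹ = (t₁ * t₂⁻¹) * w := by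
      ac_rfl
    have e3 : w * t₁ * s * t₁⁻¹ = s * w := by
      rw [mul_comm (w * t₁) s, mul_assoc, mul_assoc, mul_inv_cancel, mul_one]
    have e4 : w * t₁ * t₁⁻¹ = w := by rw [mul_assoc, mul_inv_cancel, mul_one]
    rw [e1, e2, e3, e4, hinv] at this
    exact this
  have key := fourier_const (K := AlgebraicClosure (ZMod p)) hφK
    (fun a => algebraMap (ZMod p) (AlgebraicClosure (ZMod p)) (ψ a)) h₀ hh₀
    (fun δ => by simp only [hinv])
    (fun w s t₁ t₂ ht₁ ht₂ => by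
      simp only [← map_sub, hE' w s t₁ t₂ ht₁ ht₂])
  intro δ
  have h3 := key δ
  simp only [h1, map_zero] at h3
  exact (map_eq_zero_iff _ (algebraMap (ZMod p) (AlgebraicClosure (ZMod p))).injective).mp h3

end Fourier

end Fermat.Agent.S41lib.CSP
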