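/-
S41 / CSP block (helper8): abstract bottom-row symbols for ROUTE K (helper2's proof #1088,
integer formulation).

A `KSym N q A` axiomatises `M c d = φ(any g ∈ Γ₀(N) with bottom row (c,d))` for a homomorphism
`φ : Γ₀(N) → A` such that
* `φ (E₁₂ 1) = 0`  (`add_right`, "P1"),
* `φ (E₂₁ N) = 0`  (`add_left`, "P2"),
* `φ g' = φ g` whenever `g, g'` have bottom rows `(c, d)`, `(c, d * q^(2k))` with `c` prime to `q`
  and `q^k ≡ 1 mod N`  (`mul_sq`, "P3"; this is what the gluing over `ℤ[1/q]` provides: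
  `g' = E₁₂(t) · t_u · g · t_{u²} · t_u⁻¹`, `u = q^k`, `t_u = diag(u⁻¹,u)`),
* the length-two relation "L2" (`diff`): `g₃ g₁⁻¹` has bottom row `(c x, 1 - a₁ x)`,
  `x = D₁ - D₃`, if `g₁ = (a₁ b₁; c D₁)`, `g₃ = (* *; c D₃)`.

The key relation (KR) is derived here from these axioms.
-/
import Mathlib

namespace Fermat.Agent.S41lib.CSP

/-- Abstract bottom-row symbol of level `N` w.r.t. the inverted number `q` (route K). -/
structure KSym (N q : ℕ) (A : Type*) [AddCommGroup A] where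
  /-- the symbol; only meaningful for `N ∣ c`, `IsCoprime c d` -/
  M : ℤ → ℤ → A
  zero_one : M 0 1 = 0
  add_right : ∀ c d x : ℤ, (N : ℤ) ∣ c → IsCoprime c d → M c (d + x * c) = M c d
  add_left : ∀ c d y : ℤ, (N : ℤ) ∣ c → IsCoprime c d → M (c + N * y * d) d = M c d
  mul_sq : ∀ (c d : ℤ) (k : ℕ), (N : ℤ) ∣ c → IsCoprime c d → IsCoprime c (q : ℤ) →
    (N : ℤ) ∣ (q : ℤ) ^ k - 1 → M c (d * (q : ℤ) ^ (2 * k)) = M c d
  diff : ∀ c D₁ D₃ a₁ b₁ : ℤ, (N : ℤ) ∣ c → a₁ * D₁ - b₁ * c = 1 → IsCoprime c D₃ →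
    M (c * (D₁ - D₃)) (1 - a₁ * (D₁ - D₃)) = M c D₃ - M c D₁

namespace KSym

variable {N q : ℕ} {A : Type*} [AddCommGroup A] (S : KSym N q A)

/-- The symbol only depends on `d` modulo `c`. -/
theorem congr_right {c d d' : ℤ} (hN : (N : ℤ) ∣ c) (hcd : IsCoprime c d)
    (h : d' ≡ d [ZMOD c]) : S.M c d' = S.M c d := by
  obtain ⟨x, hx⟩ := (Int.modEq_iff_dvd.mp h.symm)
  have : d' = d + x * c := by linarith [hx, mul_comm c x]
  rw [this]
  exact S.add_right c d x hN hcd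

/-- The symbol only depends on `c` modulo `N * d`. -/
theorem congr_left {c c' d : ℤ} (hN : (N : ℤ) ∣ c) (hcd : IsCoprime c d)
    (h : c' ≡ c [ZMOD (N * d)]) : S.M c' d = S.M c d := by
  obtain ⟨y, hy⟩ := (Int.modEq_iff_dvd.mp h.symm)
  have : c' = c + N * y * d := by
    have : (N : ℤ) * d * y = N * y * d := by ring
    linarith [hy]
  rw [this]
  exact S.add_left c d y hN hcd

theorem M_one {c : ℤ} (hN : (N : ℤ) ∣ c) : S.M c 1 = 0 := by
  obtain ⟨e, rfl⟩ := hN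
  have h := S.add_left 0 1 e (dvd_zero _) (isCoprime_zero_left.mpr isUnit_one)
  rw [S.zero_one] at h
  rw [← h]
  congr 1
  ring

/-- L2 in congruence form. -/
theorem diff' {c D₁ D₃ a₁ : ℤ} (hN : (N : ℤ) ∣ c) (ha : c ∣ a₁ * D₁ - 1)
    (h3 : IsCoprime c D₃) :
    S.M (c * (D₁ - D₃)) (1 - a₁ * (D₁ - D₃)) = S.M c D₃ - S.M c D₁ := by
  obtain ⟨b, hb⟩ := ha
  exact S.diff c D₁ D₃ a₁ b hN (by linarith [hb, mul_comm c b]) h3

/-- **Key relation (KR).**  Rows `(c, D₁)`, `(c, D₃)` with difference `x = D₁ - D₃`, `a₁` an inverse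
of `D₁` mod `c`; `h = q^(2k)` with `q^k ≡ 1 mod N` and `1 - h = κ x`; `D₁'` an inverse of
`a₁' = κ + h a₁` mod `c`.  Then the pair `(D₁', D₁' - x)` has the same symbol difference. -/
theorem keyRel {c D₁ D₃ a₁ κ D₁' : ℤ} {k : ℕ} (hN : (N : ℤ) ∣ c)
    (ha : c ∣ a₁ * D₁ - 1) (h3 : IsCoprime c D₃)
    (hcq : IsCoprime c (q : ℤ)) (hxq : IsCoprime (D₁ - D₃) (q : ℤ))
    (hk : (N : ℤ) ∣ (q : ℤ) ^ k - 1)
    (hκ : 1 - (q : ℤ) ^ (2 * k) = κ * (D₁ - D₃))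
    (ha' : c ∣ (κ + (q : ℤ) ^ (2 * k) * a₁) * D₁' - 1) :
    S.M c (D₁' - (D₁ - D₃)) - S.M c D₁' = S.M c D₃ - S.M c D₁ := by
  obtain ⟨x, hx⟩ : ∃ x : ℤ, x = D₁ - D₃ := ⟨_, rfl⟩
  obtain ⟨h, hh⟩ : ∃ h : ℤ, h = (q : ℤ) ^ (2 * k) := ⟨_, rfl⟩
  rw [← hx] at hxq hκ ⊢
  rw [← hh] at hκ ha'
  have hhx : h = 1 - κ * x := by linarith [hκ]
  -- coprimality facts
  have hch : IsCoprime c h := by rw [hh]; exact hcq.pow_right
  obtain ⟨b, hb⟩ := ha
  obtain ⟨b', hb'⟩ := ha'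
  have hca₁ : IsCoprime c a₁ := ⟨-b, D₁, by linarith [hb, mul_comm c b]⟩
  have hrow : IsCoprime (c * x) (1 - a₁ * x) := by
    refine IsCoprime.mul_left ?_ ?_
    · -- 1 - a₁ x ≡ a₁ D₃ mod c
      have h1 : IsCoprime c (a₁ * D₃) := hca₁.mul_right h3
      have : 1 - a₁ * x = a₁ * D₃ + (-b) * c := by rw [hx]; linarith [hb, mul_comm c b]
      rw [this]
      exact (IsCoprime.add_mul_right_right_iff).mpr h1
    · exact ⟨a₁, 1, by ring⟩
  have hNcx : (N : ℤ) ∣ c * x := Dvd.dvd.mul_right hN x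
  have hcxq : IsCoprime (c * x) (q : ℤ) := IsCoprime.mul_left hcq hxq
  -- step 1: L2
  have e1 := S.diff c D₁ D₃ a₁ b hN (by linarith [hb, mul_comm c b]) h3
  rw [← hx] at e1
  -- step 2: P3
  have e2 := S.mul_sq (c * x) (1 - a₁ * x) k hNcx hrow hcxq hk
  rw [← hh] at e2
  -- step 3: rewrite
  have e3 : (1 - a₁ * x) * h = 1 - (κ + h * a₁) * x := by
    linear_combination hhx
  -- step 4: L2 again
  have h3' : IsCoprime c (D₁' - x) := by
    -- (κ + h a₁) (D₁' - x) ≡ 1 - (κ + h a₁) x = h (1 - a₁ x) ≡ h a₁ D₃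
    have h1 : IsCoprime c (h * (a₁ * D₃)) := hch.mul_right (hca₁.mul_right h3)
    have : (κ + h * a₁) * (D₁' - x) = h * (a₁ * D₃) + (b' - h * b) * c := by
      rw [hx] at hhx ⊢
      linear_combination hb' - h * hb - hhx
    have h2 : IsCoprime c ((κ + h * a₁) * (D₁' - x)) := by
      rw [this]
      exact (IsCoprime.add_mul_right_right_iff).mpr h1
    exact h2.of_mul_right_right
  have e4 := S.diff c D₁' (D₁' - x) (κ + h * a₁) b' hN (by linarith [hb', mul_comm c b']) h3'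
  have hxx : D₁' - (D₁' - x) = x := by ring
  rw [hxx] at e4
  rw [← e4, ← e3, e2, e1]

end KSym

end Fermat.Agent.S41lib.CSP
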