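/-
S41 / CSP block (helper4): the INSTANCE for route K1.

From a homomorphism `φ : Γ₀(N) → A` (written `↥(Gamma0 N) →* Multiplicative A`) which kills the
upper unipotent `(1 1; 0 1)`, the lower unipotent `(1 0; N 1)` and satisfies the `q`-power
invariance (P3ℤ), we build the bottom-row symbol `M c d = φ (any g ∈ Γ₀(N) with bottom row (c, d))`
and check all axioms of helper8's `KSym` (P1, P2, P3, L2, `M 0 1 = 0`).  Everything happens inside
`Γ₀(N) ≤ SL(2,ℤ)`.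
-/
import Mathlib
import Fermat.Agent.S41lib.CSP.KSym

namespace Fermat.Agent.S41lib.CSP.OfHom

open CongruenceSubgroup Matrix MatrixGroups

variable {N : ℕ}

/-! ### Elementary matrices in `Γ₀(N)` and entry formulas -/

theorem det_eq (g : SL(2, ℤ)) : g 0 0 * g 1 1 - g 0 1 * g 1 0 = 1 := by
  have := g.det_coe
  rw [Matrix.det_fin_two] at this
  exact this

theorem sl_ext {g h : SL(2, ℤ)} (h00 : g 0 0 = h 0 0) (h01 : g 0 1 = h 0 1)
    (h10 : g 1 0 = h 1 0) (h11 : g 1 1 = h 1 1) : g = h := by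
  apply Subtype.ext
  ext i j
  fin_cases i <;> fin_cases j <;> assumption

theorem mem_iff (g : SL(2, ℤ)) : g ∈ Gamma0 N ↔ (N : ℤ) ∣ g 1 0 := by
  rw [Gamma0_mem, ZMod.intCast_zmod_eq_zero_iff_dvd]

/-- The element of `SL(2,ℤ)` with prescribed entries and determinant one. -/
def mk (a b c d : ℤ) (h : a * d - b * c = 1) : SL(2, ℤ) :=
  ⟨!![a, b; c, d], by rw [Matrix.det_fin_two_of]; exact h⟩

@[simp] theorem mk_00 (a b c d : ℤ) (h : a * d - b * c = 1) : mk a b c d h 0 0 = a := rfl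
@[simp] theorem mk_01 (a b c d : ℤ) (h : a * d - b * c = 1) : mk a b c d h 0 1 = b := rfl
@[simp] theorem mk_10 (a b c d : ℤ) (h : a * d - b * c = 1) : mk a b c d h 1 0 = c := rfl
@[simp] theorem mk_11 (a b c d : ℤ) (h : a * d - b * c = 1) : mk a b c d h 1 1 = d := rfl

/-- The element of `Γ₀(N)` with prescribed entries. -/
def mk0 (a b c d : ℤ) (h : a * d - b * c = 1) (hN : (N : ℤ) ∣ c) : ↥(Gamma0 N) :=
  ⟨mk a b c d h, (mem_iff _).mpr hN⟩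

@[simp] theorem mk0_00 (a b c d : ℤ) (h : a * d - b * c = 1) (hN : (N : ℤ) ∣ c) :
    (mk0 a b c d h hN : ↥(Gamma0 N)).1 0 0 = a := rfl
@[simp] theorem mk0_01 (a b c d : ℤ) (h : a * d - b * c = 1) (hN : (N : ℤ) ∣ c) :
    (mk0 a b c d h hN : ↥(Gamma0 N)).1 0 1 = b := rfl
@[simp] theorem mk0_10 (a b c d : ℤ) (h : a * d - b * c = 1) (hN : (N : ℤ) ∣ c) :
    (mk0 a b c d h hN : ↥(Gamma0 N)).1 1 0 = c := rfl
@[simp] theorem mk0_11 (a b c d : ℤ) (h : a * d - b * c = 1) (hN : (N : ℤ) ∣ c) :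
    (mk0 a b c d h hN : ↥(Gamma0 N)).1 1 1 = d := rfl

theorem mul_00 (g h : SL(2, ℤ)) : (g * h) 0 0 = g 0 0 * h 0 0 + g 0 1 * h 1 0 := by
  rw [Matrix.SpecialLinearGroup.coe_mul, Matrix.mul_apply, Fin.sum_univ_two]
theorem mul_01 (g h : SL(2, ℤ)) : (g * h) 0 1 = g 0 0 * h 0 1 + g 0 1 * h 1 1 := by
  rw [Matrix.SpecialLinearGroup.coe_mul, Matrix.mul_apply, Fin.sum_univ_two]
theorem mul_10 (g h : SL(2, ℤ)) : (g * h) 1 0 = g 1 0 * h 0 0 + g 1 1 * h 1 0 := by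
  rw [Matrix.SpecialLinearGroup.coe_mul, Matrix.mul_apply, Fin.sum_univ_two]
theorem mul_11 (g h : SL(2, ℤ)) : (g * h) 1 1 = g 1 0 * h 0 1 + g 1 1 * h 1 1 := by
  rw [Matrix.SpecialLinearGroup.coe_mul, Matrix.mul_apply, Fin.sum_univ_two]

theorem inv_00 (g : SL(2, ℤ)) : g⁻¹ 0 0 = g 1 1 := by
  rw [Matrix.SpecialLinearGroup.coe_inv, Matrix.adjugate_fin_two]; rfl
theorem inv_01 (g : SL(2, ℤ)) : g⁻¹ 0 1 = -g 0 1 := by
  rw [Matrix.SpecialLinearGroup.coe_inv, Matrix.adjugate_fin_two]; rfl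
theorem inv_10 (g : SL(2, ℤ)) : g⁻¹ 1 0 = -g 1 0 := by
  rw [Matrix.SpecialLinearGroup.coe_inv, Matrix.adjugate_fin_two]; rfl
theorem inv_11 (g : SL(2, ℤ)) : g⁻¹ 1 1 = g 0 0 := by
  rw [Matrix.SpecialLinearGroup.coe_inv, Matrix.adjugate_fin_two]; rfl

/-- The upper unipotent `(1 x; 0 1)` of `Γ₀(N)`. -/
def U12 (N : ℕ) (x : ℤ) : ↥(Gamma0 N) := mk0 1 x 0 1 (by ring) (dvd_zero _)

/-- The lower unipotent `(1 0; N y 1)` of `Γ₀(N)`. -/
def U21 (N : ℕ) (y : ℤ) : ↥(Gamma0 N) := mk0 1 0 (N * y) 1 (by ring) (dvd_mul_right _ _)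

@[simp] theorem U12_00 (x : ℤ) : (U12 N x).1 0 0 = 1 := rfl
@[simp] theorem U12_01 (x : ℤ) : (U12 N x).1 0 1 = x := rfl
@[simp] theorem U12_10 (x : ℤ) : (U12 N x).1 1 0 = 0 := rfl
@[simp] theorem U12_11 (x : ℤ) : (U12 N x).1 1 1 = 1 := rfl
@[simp] theorem U21_00 (y : ℤ) : (U21 N y).1 0 0 = 1 := rfl
@[simp] theorem U21_01 (y : ℤ) : (U21 N y).1 0 1 = 0 := rfl
@[simp] theorem U21_10 (y : ℤ) : (U21 N y).1 1 0 = N * y := rfl
@[simp] theorem U21_11 (y : ℤ) : (U21 N y).1 1 1 = 1 := rfl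

theorem g0_ext {g h : ↥(Gamma0 N)} (h00 : g.1 0 0 = h.1 0 0) (h01 : g.1 0 1 = h.1 0 1)
    (h10 : g.1 1 0 = h.1 1 0) (h11 : g.1 1 1 = h.1 1 1) : g = h :=
  Subtype.ext (sl_ext h00 h01 h10 h11)

theorem U12_add (x y : ℤ) : U12 N (x + y) = U12 N x * U12 N y := by
  apply g0_ext <;>
    simp only [Subgroup.coe_mul, mul_00, mul_01, mul_10, mul_11, U12_00, U12_01, U12_10, U12_11] <;>
    ring

theorem U21_add (x y : ℤ) : U21 N (x + y) = U21 N x * U21 N y := by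
  apply g0_ext <;>
    simp only [Subgroup.coe_mul, mul_00, mul_01, mul_10, mul_11, U21_00, U21_01, U21_10, U21_11] <;>
    ring

theorem U12_zero : U12 N 0 = 1 := by
  apply g0_ext <;> simp

theorem U21_zero : U21 N 0 = 1 := by
  apply g0_ext <;> simp

/-- The hom `x ↦ (1 x; 0 1)`. -/
def U12Hom (N : ℕ) : Multiplicative ℤ →* ↥(Gamma0 N) where
  toFun x := U12 N (Multiplicative.toAdd x)
  map_one' := U12_zero
  map_mul' _ _ := U12_add _ _

/-- The hom `y ↦ (1 0; N y 1)`. -/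
def U21Hom (N : ℕ) : Multiplicative ℤ →* ↥(Gamma0 N) where
  toFun x := U21 N (Multiplicative.toAdd x)
  map_one' := U21_zero
  map_mul' _ _ := U21_add _ _

theorem U12_eq_zpow (x : ℤ) : U12 N x = U12 N 1 ^ x := by
  have h := map_zpow (U12Hom N) (Multiplicative.ofAdd (1 : ℤ)) x
  have e : (Multiplicative.ofAdd (1 : ℤ)) ^ x = Multiplicative.ofAdd x := by
    rw [← ofAdd_zsmul]; simp
  rw [e] at h
  exact h

theorem U21_eq_zpow (x : ℤ) : U21 N x = U21 N 1 ^ x := by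
  have h := map_zpow (U21Hom N) (Multiplicative.ofAdd (1 : ℤ)) x
  have e : (Multiplicative.ofAdd (1 : ℤ)) ^ x = Multiplicative.ofAdd x := by
    rw [← ofAdd_zsmul]; simp
  rw [e] at h
  exact h

/-- An element of `Γ₀(N)` with bottom row `(0, 1)` is an upper unipotent. -/
theorem eq_U12_of_row (g : ↥(Gamma0 N)) (h10 : g.1 1 0 = 0) (h11 : g.1 1 1 = 1) :
    g = U12 N (g.1 0 1) := by
  have hd := det_eq g.1
  rw [h10, h11] at hd
  apply g0_ext <;> simp only [U12_00, U12_01, U12_10, U12_11, h10, h11]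
  linarith

/-- An element of `Γ₀(N)` with right column `(0, 1)` is a lower unipotent. -/
theorem eq_U21_of_col (g : ↥(Gamma0 N)) (h01 : g.1 0 1 = 0) (h11 : g.1 1 1 = 1) :
    ∃ y : ℤ, g = U21 N y := by
  have hd := det_eq g.1
  rw [h01, h11] at hd
  obtain ⟨y, hy⟩ := (mem_iff g.1).mp g.2
  refine ⟨y, ?_⟩
  apply g0_ext <;> simp only [U21_00, U21_01, U21_10, U21_11, h01, h11, hy]
  linarith

/-- Existence of an element of `Γ₀(N)` with a given bottom row. -/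
theorem exists_row {c d : ℤ} (hN : (N : ℤ) ∣ c) (h : IsCoprime c d) :
    ∃ g : ↥(Gamma0 N), g.1 1 0 = c ∧ g.1 1 1 = d := by
  obtain ⟨u, v, huv⟩ := h
  exact ⟨mk0 v (-u) c d (by linarith) hN, rfl, rfl⟩

/-- The bottom row of an element of `Γ₀(N)` is coprime. -/
theorem isCoprime_row (g : SL(2, ℤ)) : IsCoprime (g 1 0) (g 1 1) :=
  ⟨-g 0 1, g 0 0, by linarith [det_eq g]⟩

/-! ### The symbol of a homomorphism -/

section symbol

variable {A : Type*} [AddCommGroup A] (φ : ↥(Gamma0 N) →* Multiplicative A)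

/-- `φ` kills the upper unipotents (form used in the sequel). -/
def Kills12 : Prop := ∀ g : ↥(Gamma0 N), g.1 1 0 = 0 → g.1 1 1 = 1 → φ g = 1

/-- `φ` kills the lower unipotents of `Γ₀(N)`. -/
def Kills21 : Prop := ∀ g : ↥(Gamma0 N), g.1 0 1 = 0 → g.1 1 1 = 1 → φ g = 1

/-- `q`-power invariance (P3ℤ). -/
def Inv3 (q : ℕ) : Prop := ∀ (g g' : ↥(Gamma0 N)) (k : ℕ), IsCoprime (g.1 1 0) (q : ℤ) →
  (N : ℤ) ∣ (q : ℤ) ^ k - 1 → g'.1 1 0 = g.1 1 0 → g'.1 1 1 = g.1 1 1 * (q : ℤ) ^ (2 * k) →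
  φ g' = φ g

variable {φ}

theorem kills12_of_one (h : φ (U12 N 1) = 1) : Kills12 φ := by
  intro g h10 h11
  rw [eq_U12_of_row g h10 h11, U12_eq_zpow, map_zpow, h, _root_.one_zpow]

theorem kills21_of_one (h : φ (U21 N 1) = 1) : Kills21 φ := by
  intro g h01 h11
  obtain ⟨y, rfl⟩ := eq_U21_of_col g h01 h11
  rw [U21_eq_zpow, map_zpow, h, _root_.one_zpow]

/-- Two elements with the same bottom row have the same image. -/
theorem phi_eq_of_row (h1 : Kills12 φ) {g g' : ↥(Gamma0 N)} (h10 : g'.1 1 0 = g.1 1 0)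
    (h11 : g'.1 1 1 = g.1 1 1) : φ g' = φ g := by
  have hk : φ (g' * g⁻¹) = 1 := by
    apply h1
    · simp only [Subgroup.coe_mul, Subgroup.coe_inv, mul_10, inv_00, inv_10, h10, h11]; ring
    · simp only [Subgroup.coe_mul, Subgroup.coe_inv, mul_11, inv_01, inv_11, h10, h11]
      linarith [det_eq g.1]
  rw [map_mul, map_inv, mul_inv_eq_one] at hk
  exact hk

variable (φ)

open Classical in
/-- The symbol `M c d = φ (g)` for any `g ∈ Γ₀(N)` with bottom row `(c, d)` (and `0` if there is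
none). -/
noncomputable def M (c d : ℤ) : A :=
  if h : ∃ g : ↥(Gamma0 N), g.1 1 0 = c ∧ g.1 1 1 = d then Multiplicative.toAdd (φ h.choose) else 0

variable {φ}

theorem M_eq (h1 : Kills12 φ) (g : ↥(Gamma0 N)) :
    M φ (g.1 1 0) (g.1 1 1) = Multiplicative.toAdd (φ g) := by
  have h : ∃ g' : ↥(Gamma0 N), g'.1 1 0 = g.1 1 0 ∧ g'.1 1 1 = g.1 1 1 := ⟨g, rfl, rfl⟩
  rw [M, dif_pos h]
  exact congrArg _ (phi_eq_of_row h1 h.choose_spec.1 h.choose_spec.2)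

theorem M_eq' (h1 : Kills12 φ) (g : ↥(Gamma0 N)) {c d : ℤ} (hc : g.1 1 0 = c) (hd : g.1 1 1 = d) :
    M φ c d = Multiplicative.toAdd (φ g) := by
  rw [← hc, ← hd, M_eq h1]

theorem M_zero_one (h1 : Kills12 φ) : M φ 0 1 = 0 := by
  rw [M_eq' h1 (1 : ↥(Gamma0 N)) (c := 0) (d := 1) rfl rfl, map_one, toAdd_one]

/-- (P1) -/
theorem M_add_right (h1 : Kills12 φ) (c d x : ℤ) (hN : (N : ℤ) ∣ c) (hcd : IsCoprime c d) :
    M φ c (d + x * c) = M φ c d := by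
  obtain ⟨g, hc, hd⟩ := exists_row hN hcd
  have e : φ (g * U12 N x) = φ g := by
    rw [map_mul, h1 (U12 N x) rfl rfl, mul_one]
  rw [M_eq' h1 g hc hd, ← e]
  apply M_eq' h1
  · simp only [Subgroup.coe_mul, mul_10, U12_00, U12_10, hc]; ring
  · simp only [Subgroup.coe_mul, mul_11, U12_01, U12_11, hc, hd]; ring

/-- (P2) -/
theorem M_add_left (h1 : Kills12 φ) (h2 : Kills21 φ) (c d y : ℤ) (hN : (N : ℤ) ∣ c)
    (hcd : IsCoprime c d) : M φ (c + N * y * d) d = M φ c d := by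
  obtain ⟨g, hc, hd⟩ := exists_row hN hcd
  have e : φ (g * U21 N y) = φ g := by
    rw [map_mul, h2 (U21 N y) rfl rfl, mul_one]
  rw [M_eq' h1 g hc hd, ← e]
  apply M_eq' h1
  · simp only [Subgroup.coe_mul, mul_10, U21_00, U21_10, hc, hd]; ring
  · simp only [Subgroup.coe_mul, mul_11, U21_01, U21_11, hc, hd]; ring

/-- (P3) -/
theorem M_mul_sq {q : ℕ} (h1 : Kills12 φ) (h3 : Inv3 φ q) (c d : ℤ) (k : ℕ) (hN : (N : ℤ) ∣ c)
    (hcd : IsCoprime c d) (hcq : IsCoprime c (q : ℤ)) (hk : (N : ℤ) ∣ (q : ℤ) ^ k - 1) :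
    M φ c (d * (q : ℤ) ^ (2 * k)) = M φ c d := by
  obtain ⟨g, hc, hd⟩ := exists_row hN hcd
  obtain ⟨g', hc', hd'⟩ := exists_row hN (hcd.mul_right (hcq.pow_right (n := 2 * k)))
  rw [M_eq' h1 g hc hd, M_eq' h1 g' hc' hd']
  exact congrArg _ (h3 g g' k (by rw [hc]; exact hcq) hk (by rw [hc, hc']) (by rw [hd, hd']))

/-- (L2) -/
theorem M_diff (h1 : Kills12 φ) (c D₁ D₃ a₁ b₁ : ℤ) (hN : (N : ℤ) ∣ c)
    (hdet : a₁ * D₁ - b₁ * c = 1) (h3 : IsCoprime c D₃) :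
    M φ (c * (D₁ - D₃)) (1 - a₁ * (D₁ - D₃)) = M φ c D₃ - M φ c D₁ := by
  obtain ⟨g₃, hc₃, hd₃⟩ := exists_row hN h3
  have e : Multiplicative.toAdd (φ (g₃ * (mk0 a₁ b₁ c D₁ hdet hN)⁻¹)) =
      Multiplicative.toAdd (φ g₃) - Multiplicative.toAdd (φ (mk0 a₁ b₁ c D₁ hdet hN)) := by
    rw [map_mul, map_inv, toAdd_mul, toAdd_inv, sub_eq_add_neg]
  rw [M_eq' h1 g₃ hc₃ hd₃, M_eq' h1 (mk0 a₁ b₁ c D₁ hdet hN) (c := c) (d := D₁) rfl rfl, ← e]
  apply M_eq' h1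
  · simp only [Subgroup.coe_mul, Subgroup.coe_inv, mul_10, inv_00, inv_10, mk0_10, mk0_11, hc₃,
      hd₃]
    ring
  · simp only [Subgroup.coe_mul, Subgroup.coe_inv, mul_11, inv_01, inv_11, mk0_00, mk0_01, hc₃,
      hd₃]
    linear_combination hdet

end symbol

/-! ### The `KSym` instance -/

section instance_

variable {q : ℕ} {A : Type*} [AddCommGroup A] (φ : ↥(Gamma0 N) →* Multiplicative A)

/-- The `KSym` attached to a homomorphism with (H1), (H2), (P3ℤ). -/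
noncomputable def toKSym (h1 : Kills12 φ) (h2 : Kills21 φ) (h3 : Inv3 φ q) : KSym N q A where
  M := M φ
  zero_one := M_zero_one h1
  add_right := M_add_right h1
  add_left := M_add_left h1 h2
  mul_sq := M_mul_sq h1 h3
  diff := M_diff h1

theorem toKSym_M (h1 : Kills12 φ) (h2 : Kills21 φ) (h3 : Inv3 φ q) (g : ↥(Gamma0 N)) :
    (toKSym φ h1 h2 h3).M (g.1 1 0) (g.1 1 1) = Multiplicative.toAdd (φ g) :=
  M_eq h1 g

end instance_

end Fermat.Agent.S41lib.CSP.OfHom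

namespace Fermat.Agent.S41lib.CSP

open CongruenceSubgroup Matrix MatrixGroups

/-- **The instance (helper8's signature).**  A homomorphism `φ : Γ₀(N) → A` killing the upper and
lower unipotents of `Γ₀(N)` and invariant under `d ↦ d q^(2k)` (`q^k ≡ 1 mod N`) has a
bottom-row symbol which is a `KSym`. -/
theorem exists_KSym {N q : ℕ} {A : Type*} [AddCommGroup A]
    (φ : ↥(Gamma0 N) →* Multiplicative A)
    (h1 : ∀ g : ↥(Gamma0 N), g.1 1 0 = 0 → g.1 1 1 = 1 → φ g = 1)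
    (h2 : ∀ g : ↥(Gamma0 N), g.1 0 1 = 0 → g.1 1 1 = 1 → φ g = 1)
    (h3 : ∀ (g g' : ↥(Gamma0 N)) (k : ℕ), IsCoprime (g.1 1 0) (q : ℤ) →
      (N : ℤ) ∣ (q : ℤ) ^ k - 1 → g'.1 1 0 = g.1 1 0 →
      g'.1 1 1 = g.1 1 1 * (q : ℤ) ^ (2 * k) → φ g' = φ g) :
    ∃ S : KSym N q A, ∀ g : ↥(Gamma0 N),
      S.M (g.1 1 0) (g.1 1 1) = Multiplicative.toAdd (φ g) :=
  ⟨OfHom.toKSym φ h1 h2 h3, OfHom.toKSym_M φ h1 h2 h3⟩

/-- Variant with the weak forms of (H1), (H2): only the two generators `(1 1; 0 1)` and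
`(1 0; N 1)` are assumed to be killed. -/
theorem exists_KSym_of_generators {N q : ℕ} {A : Type*} [AddCommGroup A]
    (φ : ↥(Gamma0 N) →* Multiplicative A)
    (h1 : φ (OfHom.U12 N 1) = 1) (h2 : φ (OfHom.U21 N 1) = 1)
    (h3 : ∀ (g g' : ↥(Gamma0 N)) (k : ℕ), IsCoprime (g.1 1 0) (q : ℤ) →
      (N : ℤ) ∣ (q : ℤ) ^ k - 1 → g'.1 1 0 = g.1 1 0 →
      g'.1 1 1 = g.1 1 1 * (q : ℤ) ^ (2 * k) → φ g' = φ g) :
    ∃ S : KSym N q A, ∀ g : ↥(Gamma0 N),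
      S.M (g.1 1 0) (g.1 1 1) = Multiplicative.toAdd (φ g) :=
  exists_KSym φ (OfHom.kills12_of_one h1) (OfHom.kills21_of_one h2) h3

end Fermat.Agent.S41lib.CSP
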