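import Fermat.Agent.S41lib.CSP.Main1
import Fermat.Agent.S41lib.CSP.OfHom

/-!
# S41 / CSP block (route K1): the block output

* `KSym.toSymbol1` : helper8's `KSym` is a `Symbol1` (forget the unused hypotheses).
* `KSym.eq_zero`   : a `KSym N q (ZMod p)` vanishes on all rows `(c, d)`, `N ∣ c`, `N ∣ d - 1`.
* `eq_one_of_Gamma1` : **CSP-lite**: a homomorphism `φ : Γ₀(N) → 𝔽_p` (`p` odd) which kills the
  upper and lower unipotents of `Γ₀(N)` and is invariant under `d ↦ d q^{2k}` (`q^k ≡ 1 mod N`)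
  kills `Γ₁(N)`.
-/

set_option autoImplicit false

namespace Fermat.Agent.S41lib.CSP

open CongruenceSubgroup Matrix MatrixGroups

/-- helper8's `KSym` is a `Symbol1`. -/
def KSym.toSymbol1 {N q : ℕ} {A : Type*} [AddCommGroup A] (S : KSym N q A) : Symbol1 N q A where
  M := S.M
  add_right := fun c d x hc _ hcd => S.add_right c d x hc hcd
  add_left := fun c d y hc _ hcd => S.add_left c d y hc hcd
  len2 := fun a₁ b₁ c D₁ D₃ hc h1 _ _ h3 => S.diff c D₁ D₃ a₁ b₁ hc h1 h3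
  unit_sq := fun C D k hC _ hcop hk =>
    S.mul_sq C D k hC (IsCoprime.of_mul_right_left hcop) (IsCoprime.of_mul_right_right hcop)
      (Int.modEq_iff_dvd.mp hk.symm)
  zero_one := S.zero_one

/-- **CSP-lite (K1) for `KSym`.** -/
theorem KSym.eq_zero {N q p : ℕ} (hN : 0 < N) (hq : q.Prime) (hqN : ¬ q ∣ N) (hp : p.Prime)
    (hp2 : p ≠ 2) (S : KSym N q (ZMod p)) {c d : ℤ} (hc : (N : ℤ) ∣ c) (hd : (N : ℤ) ∣ d - 1)
    (hcd : IsCoprime c d) : S.M c d = 0 :=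
  Symbol1.eq_zero hN hq hqN hp hp2 S.toSymbol1 hc
    (Int.modEq_iff_dvd.mp (Int.modEq_iff_dvd.mpr hd) |> fun h => (Int.modEq_iff_dvd.mpr h).symm)
    hcd

/-- **CSP-lite, block output.**  `φ : Γ₀(N) → 𝔽_p` killing the unipotents `(1 *; 0 1)`,
`(1 0; * 1)` of `Γ₀(N)` and invariant under `d ↦ d q^{2k}` kills `Γ₁(N)`. -/
theorem eq_one_of_Gamma1 {N q p : ℕ} (hN : 0 < N) (hq : q.Prime) (hqN : ¬ q ∣ N) (hp : p.Prime)
    (hp2 : p ≠ 2) (φ : ↥(Gamma0 N) →* Multiplicative (ZMod p))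
    (h1 : ∀ g : ↥(Gamma0 N), g.1 1 0 = 0 → g.1 1 1 = 1 → φ g = 1)
    (h2 : ∀ g : ↥(Gamma0 N), g.1 0 1 = 0 → g.1 1 1 = 1 → φ g = 1)
    (h3 : ∀ (g g' : ↥(Gamma0 N)) (k : ℕ), IsCoprime (g.1 1 0) (q : ℤ) →
      (N : ℤ) ∣ (q : ℤ) ^ k - 1 → g'.1 1 0 = g.1 1 0 →
      g'.1 1 1 = g.1 1 1 * (q : ℤ) ^ (2 * k) → φ g' = φ g)
    (g : ↥(Gamma0 N)) (hg : (N : ℤ) ∣ g.1 1 1 - 1) : φ g = 1 := by
  obtain ⟨S, hS⟩ := exists_KSym (q := q) φ h1 h2 h3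
  have hc : (N : ℤ) ∣ g.1 1 0 := (OfHom.mem_iff g.1).mp g.2
  have h0 := S.eq_zero hN hq hqN hp hp2 hc hg (OfHom.isCoprime_row g.1)
  rw [hS g] at h0
  exact Multiplicative.toAdd.injective (by simpa using h0)

end Fermat.Agent.S41lib.CSP
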