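import Fermat.Agent.S41lib.CSP.PrimeLevel

/-!
# S41 / CSP block (route K1), Step 4: the symbol vanishes identically

`Symbol1.eq_zero`: every `Symbol1 N q (ZMod p)` (`p` odd, `q` prime not dividing `N`) is zero on
all rows `(c, d)` with `N ∣ c`, `d ≡ 1 mod N`, `gcd (c, d) = 1`.
-/

set_option autoImplicit false

namespace Fermat.Agent.S41lib.CSP

namespace Symbol1

variable {N q p : ℕ}

/-- Euler: `q ^ φ(N²) ≡ 1 mod N²`. -/
lemma pow_totient_sq_modEq (hq : q.Prime) (hqN : ¬ q ∣ N) :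
    (q : ℤ) ^ (Nat.totient (N ^ 2)) ≡ 1 [ZMOD ((N : ℤ) ^ 2)] := by
  have hcop : Nat.Coprime q (N ^ 2) :=
    Nat.Coprime.pow_right 2 ((Nat.Prime.coprime_iff_not_dvd hq).mpr hqN)
  have := Nat.ModEq.pow_totient hcop
  have h2 := (Int.natCast_modEq_iff).mpr this
  push_cast at h2
  exact h2

/-- The case `c ≠ 0`, `p ∤ d`. -/
lemma eq_zero_aux [Fact p.Prime] (hN : 0 < N) (hq : q.Prime) (hqN : ¬ q ∣ N) (hp2 : p ≠ 2)
    (S : Symbol1 N q (ZMod p)) {c₀ d : ℤ} (hd : d ≡ 1 [ZMOD (N : ℤ)])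
    (hcd : IsCoprime ((N : ℤ) * c₀) d) (hpd : ¬ (p : ℤ) ∣ d) : S.M ((N : ℤ) * c₀) d = 0 := by
  have hp : p.Prime := Fact.out
  have hd0 : d ≠ 0 := by
    rintro rfl
    exact hpd (dvd_zero _)
  have hc₀d : IsCoprime c₀ d := IsCoprime.of_mul_left_right hcd
  set E := Nat.totient (N ^ 2) with hEdef
  have hE := pow_totient_sq_modEq hq hqN
  have hE0 : 0 < E := Nat.totient_pos.mpr (pow_pos hN 2)
  -- Dirichlet
  have hm₁ : d.natAbs ≠ 0 := Int.natAbs_ne_zero.mpr hd0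
  have hcopm : Nat.Coprime d.natAbs p := by
    apply Nat.Coprime.symm
    rw [Nat.Prime.coprime_iff_not_dvd hp]
    intro h
    exact hpd (Int.natCast_dvd.mpr h)
  set a₁ : ℕ := (c₀ % (d.natAbs : ℤ)).toNat with ha₁def
  have hdabs : (0 : ℤ) < (d.natAbs : ℤ) := by exact_mod_cast Nat.pos_of_ne_zero hm₁
  have ha₁ : (a₁ : ℤ) = c₀ % (d.natAbs : ℤ) :=
    Int.toNat_of_nonneg (Int.emod_nonneg _ hdabs.ne')
  have ha₁mod : (a₁ : ℤ) ≡ c₀ [ZMOD (d.natAbs : ℤ)] := by
    rw [ha₁]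
    exact Int.mod_modEq _ _
  have ha₁cop : Nat.Coprime a₁ d.natAbs := by
    have h1 : IsCoprime (a₁ : ℤ) (d.natAbs : ℤ) := by
      have h2 : IsCoprime c₀ (d.natAbs : ℤ) := by
        rcases Int.natAbs_eq d with h | h
        · rw [← h]; exact hc₀d
        · have : (d.natAbs : ℤ) = -d := by linarith
          rw [this]
          exact hc₀d.neg_right
      obtain ⟨t, ht⟩ := Int.modEq_iff_dvd.mp ha₁mod
      -- c₀ - a₁ = |d| t
      have : (a₁ : ℤ) = c₀ + (-t) * (d.natAbs : ℤ) := by linarith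
      rw [this]
      exact (IsCoprime.add_mul_right_left_iff).mpr h2
    exact Nat.isCoprime_iff_coprime.mp h1
  have h2cop : Nat.Coprime 2 p := by
    apply Nat.Coprime.symm
    rw [Nat.Prime.coprime_iff_not_dvd hp]
    intro h
    exact hp2 ((Nat.prime_dvd_prime_iff_eq hp Nat.prime_two).mp h)
  obtain ⟨r, hrB, hr, hr1, hr2⟩ := exists_prime_gt_modEq_modEq (max N (q ^ (2 * E))) hm₁
    hp.ne_zero hcopm ha₁cop h2cop
  have hrN' : N < r := lt_of_le_of_lt (le_max_left _ _) hrB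
  have hrQ : q ^ (2 * E) < r := lt_of_le_of_lt (le_max_right _ _) hrB
  have hq2 : 2 ≤ q := hq.two_le
  have hqle : q ≤ q ^ (2 * E) := by
    calc q = q ^ 1 := (pow_one q).symm
      _ ≤ q ^ (2 * E) := Nat.pow_le_pow_right (by omega) (by omega)
  have hrq : r ≠ q := by omega
  have hr2' : 2 < r := by omega
  have hrN : ¬ r ∣ N := fun h => by
    have := Nat.le_of_dvd hN h
    omega
  have : Fact r.Prime := ⟨hr⟩
  -- r ≡ c₀ mod d
  have hrc₀ : (r : ℤ) ≡ c₀ [ZMOD d] := by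
    have h1 : (r : ℤ) ≡ (a₁ : ℤ) [ZMOD (d.natAbs : ℤ)] := (Int.natCast_modEq_iff).mpr hr1
    have h2 := h1.trans ha₁mod
    rw [Int.modEq_iff_dvd] at h2 ⊢
    exact Int.natAbs_dvd.mp h2
  obtain ⟨t, ht⟩ := Int.modEq_iff_dvd.mp hrc₀
  -- move to level N r
  have hmove : S.M ((N : ℤ) * r) d = S.M ((N : ℤ) * c₀) d := by
    have := S.add_left ((N : ℤ) * c₀) d (-t) (dvd_mul_right _ _) hd hcd
    rw [← this]
    congr 1
    have : (r : ℤ) = c₀ - d * t := by linarith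
    rw [this]
    ring
  rw [← hmove]
  -- hypotheses of the prime level theorem
  have hDr : ((d : ℤ) : ZMod r) ≠ 0 := by
    rw [Ne, ZMod.intCast_zmod_eq_zero_iff_dvd]
    intro hrd
    have hrc : (r : ℤ) ∣ c₀ := by
      have : c₀ = d * t + r := by linarith
      rw [this]
      exact dvd_add (Dvd.dvd.mul_right hrd _) (dvd_refl _)
    obtain ⟨u, v, huv⟩ := hc₀d
    have h1 : (r : ℤ) ∣ 1 := by
      rw [← huv]
      exact dvd_add (Dvd.dvd.mul_left hrc _) (Dvd.dvd.mul_left hrd _)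
    have := Int.eq_one_of_dvd_one (by positivity) h1
    have : r = 1 := by exact_mod_cast this
    exact hr.one_lt.ne' this
  have hpr : ¬ p ∣ r - 1 := by
    intro h
    have h1 : r - 1 + 1 ≡ 0 + 1 [MOD p] := Nat.ModEq.add_right 1 (Nat.modEq_zero_iff_dvd.mpr h)
    have h3 : r - 1 + 1 = r := by omega
    rw [h3] at h1
    have h4 : 2 ≡ 1 [MOD p] := hr2.symm.trans h1
    have h5 : p ∣ 2 - 1 := (Nat.modEq_iff_dvd' (by norm_num)).mp h4.symm
    have : p ∣ 1 := by simpa using h5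
    exact hp.one_lt.ne' (Nat.dvd_one.mp this)
  have hh₀ : (q : ZMod r) ^ (2 * E) ≠ 1 := by
    intro h
    have h1 : ((q ^ (2 * E) - 1 : ℕ) : ZMod r) = 0 := by
      rw [Nat.cast_sub (Nat.one_le_pow _ _ (by omega))]
      push_cast
      rw [h, sub_self]
    rw [ZMod.natCast_eq_zero_iff] at h1
    have hpos : 0 < q ^ (2 * E) - 1 := by
      have : 2 ≤ q ^ (2 * E) := le_trans hq2 hqle
      omega
    have := Nat.le_of_dvd hpos h1
    omega
  exact M_prime_level_eq_zero S hN hq hqN hrN hrq hr2' E hE hh₀ hpr hd hDr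

/-- **CSP-lite (K1), abstract integral form.** -/
theorem eq_zero (hN : 0 < N) (hq : q.Prime) (hqN : ¬ q ∣ N) (hp : p.Prime) (hp2 : p ≠ 2)
    (S : Symbol1 N q (ZMod p)) {c d : ℤ} (hc : (N : ℤ) ∣ c) (hd : d ≡ 1 [ZMOD (N : ℤ)])
    (hcd : IsCoprime c d) : S.M c d = 0 := by
  have : Fact p.Prime := ⟨hp⟩
  have hpP : Prime (p : ℤ) := Nat.prime_iff_prime_int.mp hp
  -- first the case c ≠ 0
  have main : ∀ c₀ d : ℤ, c₀ ≠ 0 → d ≡ 1 [ZMOD (N : ℤ)] → IsCoprime ((N : ℤ) * c₀) d →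
      S.M ((N : ℤ) * c₀) d = 0 := by
    intro c₀ d hc₀ hd hcd
    by_cases hpd : (p : ℤ) ∣ d
    · -- replace d by d + c
      have hpc : ¬ (p : ℤ) ∣ (N : ℤ) * c₀ := by
        intro hpc
        obtain ⟨u, v, huv⟩ := hcd
        have : (p : ℤ) ∣ 1 := by
          rw [← huv]
          exact dvd_add (Dvd.dvd.mul_left hpc _) (Dvd.dvd.mul_left hpd _)
        exact hpP.not_isUnit (isUnit_of_dvd_one this)
      have h1 := S.add_right ((N : ℤ) * c₀) d 1 (dvd_mul_right _ _) hd hcd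
      rw [← h1]
      refine eq_zero_aux hN hq hqN hp2 S ?_ ?_ ?_
      · have : d + 1 * ((N : ℤ) * c₀) ≡ d [ZMOD (N : ℤ)] := by
          apply Int.modEq_iff_dvd.mpr
          exact ⟨-c₀, by ring⟩
        exact this.trans hd
      · exact (IsCoprime.add_mul_left_right_iff (z := 1)).mpr hcd |> fun h => by
          simpa [mul_comm] using h
      · intro h
        apply hpc
        have : (N : ℤ) * c₀ = (d + 1 * ((N : ℤ) * c₀)) - d := by ring
        rw [this]
        exact dvd_sub h hpd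
    · exact eq_zero_aux hN hq hqN hp2 S hd hcd hpd
  obtain ⟨c₀, rfl⟩ := hc
  by_cases hc₀ : c₀ = 0
  · subst hc₀
    rw [mul_zero] at hcd ⊢
    have hu : IsUnit d := isCoprime_zero_left.mp hcd
    rcases Int.isUnit_iff.mp hu with rfl | rfl
    · exact S.zero_one
    · have h1 := S.add_left 0 (-1) 1 (dvd_zero _) hd hcd
      rw [← h1]
      have := main (-1) (-1) (by norm_num) hd (by
        have : IsCoprime ((N : ℤ) * (-1)) (-1) := isCoprime_one_right.neg_right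
        exact this)
      convert this using 2
      ring
  · exact main c₀ d hc₀ hd hcd

end Symbol1

end Fermat.Agent.S41lib.CSP
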