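import Fermat.Agent.S41lib.CSP.Symbol1
import Fermat.Agent.S41lib.CSP.FiniteField

/-!
# S41 / CSP block (route K1), Step 2: the prime level `c = N r`

For a prime `r ∤ N q` with `q^{2E} ≢ 1 mod r` (`q^E ≡ 1 mod N²`) and `p ∤ r - 1`, the symbol
`M (N r) D` vanishes for all `D ≡ 1 mod N` prime to `r`.
-/

set_option autoImplicit false

namespace Fermat.Agent.S41lib.CSP

/-- Dirichlet + CRT for two coprime moduli. -/
lemma exists_prime_gt_modEq_modEq (n : ℕ) {m₁ m₂ a₁ a₂ : ℕ} (hm₁ : m₁ ≠ 0) (hm₂ : m₂ ≠ 0)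
    (hm : Nat.Coprime m₁ m₂) (h₁ : Nat.Coprime a₁ m₁) (h₂ : Nat.Coprime a₂ m₂) :
    ∃ P > n, P.Prime ∧ P ≡ a₁ [MOD m₁] ∧ P ≡ a₂ [MOD m₂] := by
  obtain ⟨k, hk₁, hk₂⟩ := Nat.chineseRemainder hm a₁ a₂
  have hkc : Nat.Coprime k (m₁ * m₂) := by
    apply Nat.Coprime.mul_right
    · exact (Nat.ModEq.gcd_eq hk₁).trans h₁ |> fun h => by simpa [Nat.Coprime] using h
    · exact (Nat.ModEq.gcd_eq hk₂).trans h₂ |> fun h => by simpa [Nat.Coprime] using h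
  obtain ⟨P, hPn, hP, hPk⟩ :=
    Nat.forall_exists_prime_gt_and_modEq n (Nat.mul_ne_zero hm₁ hm₂) hkc
  exact ⟨P, hPn, hP, (hPk.of_mul_right m₂).trans hk₁, (hPk.of_mul_left m₁).trans hk₂⟩

section Lift

variable (N : ℕ) {r : ℕ} [Fact r.Prime]

/-- The integer lift `D ≡ 1 mod N`, `D ≡ δ mod r` of a residue `δ` mod `r`. -/
noncomputable def lift1 (δ : ZMod r) : ℤ :=
  1 + (N : ℤ) * ((((δ - 1) * (N : ZMod r)⁻¹).val : ℕ) : ℤ)

lemma lift1_modEq (δ : ZMod r) : lift1 N δ ≡ 1 [ZMOD (N : ℤ)] := by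
  apply Int.modEq_iff_dvd.mpr
  unfold lift1
  exact ⟨-((((δ - 1) * (N : ZMod r)⁻¹).val : ℕ) : ℤ), by ring⟩

variable {N}

lemma lift1_cast (hrN : (N : ZMod r) ≠ 0) (δ : ZMod r) : ((lift1 N δ : ℤ) : ZMod r) = δ := by
  unfold lift1
  push_cast
  rw [ZMod.natCast_zmod_val, mul_comm (δ - 1), ← mul_assoc, mul_inv_cancel₀ hrN, one_mul]
  ring

lemma natCast_ne_zero_of_not_dvd (hrN : ¬ r ∣ N) : (N : ZMod r) ≠ 0 := by
  rwa [Ne, ZMod.natCast_eq_zero_iff]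

/-- `D ≡ 1 mod N` and `D` a unit mod `r` imply `gcd (N r, D) = 1`. -/
lemma isCoprime_mul_of {D : ℤ} (hD : D ≡ 1 [ZMOD (N : ℤ)]) (hu : ((D : ℤ) : ZMod r) ≠ 0) :
    IsCoprime ((N : ℤ) * r) D := by
  apply IsCoprime.mul_left
  · obtain ⟨t, ht⟩ := Int.modEq_iff_dvd.mp hD
    exact ⟨t, 1, by linarith⟩
  · have hr : Prime (r : ℤ) := Nat.prime_iff_prime_int.mp Fact.out
    rw [Prime.coprime_iff_not_dvd hr]
    rwa [Ne, ZMod.intCast_zmod_eq_zero_iff_dvd] at hu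

/-- Two integers `≡ 1 mod N` with the same residue mod `r` are congruent mod `N r`. -/
lemma modEq_mul_of (hrN : ¬ r ∣ N) {D D' : ℤ} (hD : D ≡ 1 [ZMOD (N : ℤ)])
    (hD' : D' ≡ 1 [ZMOD (N : ℤ)]) (h : ((D : ℤ) : ZMod r) = ((D' : ℤ) : ZMod r)) :
    D' ≡ D [ZMOD ((N : ℤ) * r)] := by
  have h1 : D' ≡ D [ZMOD (N : ℤ)] := hD'.trans hD.symm
  have h2 : D' ≡ D [ZMOD (r : ℤ)] := by
    rw [← ZMod.intCast_eq_intCast_iff]
    exact h.symm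
  have hcop : Nat.Coprime N r := by
    have hr : r.Prime := Fact.out
    exact Nat.Coprime.symm ((Nat.Prime.coprime_iff_not_dvd hr).mpr hrN)
  exact (Int.modEq_and_modEq_iff_modEq_mul (m := (N : ℤ)) (n := (r : ℤ))
    (by simpa using hcop)).mp ⟨h1, h2⟩

end Lift

section Psi

variable {N q p : ℕ} (S : Symbol1 N q (ZMod p)) {r : ℕ} [Fact r.Prime]

/-- The function `ψ_r` on `𝔽_r^×`. -/
noncomputable def psi (δ : (ZMod r)ˣ) : ZMod p := S.M ((N : ℤ) * r) (lift1 N (δ : ZMod r))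

lemma M_eq_psi (hrN : ¬ r ∣ N) {D : ℤ} (hD : D ≡ 1 [ZMOD (N : ℤ)]) (δ : (ZMod r)ˣ)
    (hδ : ((D : ℤ) : ZMod r) = δ) : S.M ((N : ℤ) * r) D = psi S δ := by
  have hN0 := natCast_ne_zero_of_not_dvd hrN
  unfold psi
  refine S.congr_right (dvd_mul_right _ _) (lift1_modEq N _)
    (isCoprime_mul_of (lift1_modEq N _) ?_) ?_
  · rw [lift1_cast hN0]
    exact δ.ne_zero
  · exact modEq_mul_of hrN (lift1_modEq N _) hD (by rw [lift1_cast hN0, hδ])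

lemma psi_one (hrN : ¬ r ∣ N) : psi S (1 : (ZMod r)ˣ) = 0 := by
  rw [← M_eq_psi S hrN (D := 1) (Int.ModEq.refl _) 1 (by simp)]
  exact S.M_one (dvd_mul_right _ _)

end Psi

section PsiRel

variable {N q p : ℕ} (S : Symbol1 N q (ZMod p)) {r : ℕ} [Fact r.Prime]

lemma natCast_prime_ne_zero (hq : q.Prime) (hrq : r ≠ q) : (q : ZMod r) ≠ 0 := by
  rw [Ne, ZMod.natCast_eq_zero_iff]
  intro h
  exact hrq ((Nat.prime_dvd_prime_iff_eq Fact.out hq).mp h)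

/-- The unit `h₀ = q^{2E} mod r`. -/
noncomputable def hZero (hq : q.Prime) (hrq : r ≠ q) (E : ℕ) : (ZMod r)ˣ :=
  (Units.mk0 (q : ZMod r) (natCast_prime_ne_zero hq hrq)) ^ (2 * E)

lemma hZero_val (hq : q.Prime) (hrq : r ≠ q) (E : ℕ) :
    ((hZero hq hrq E : (ZMod r)ˣ) : ZMod r) = (q : ZMod r) ^ (2 * E) := by
  simp [hZero]

lemma isCoprime_Nr_q (hq : q.Prime) (hqN : ¬ q ∣ N) (hrq : r ≠ q) :
    IsCoprime ((N : ℤ) * r) (q : ℤ) := by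
  have hr : r.Prime := Fact.out
  have h1 : Nat.Coprime N q := ((Nat.Prime.coprime_iff_not_dvd hq).mpr hqN).symm
  have h2 : Nat.Coprime r q := (Nat.coprime_primes hr hq).mpr hrq
  have := Nat.isCoprime_iff_coprime.mpr (Nat.Coprime.mul_left h1 h2)
  simpa using this

lemma psi_hZero (hq : q.Prime) (hqN : ¬ q ∣ N) (hrN : ¬ r ∣ N) (hrq : r ≠ q) (E : ℕ)
    (hE : (q : ℤ) ^ E ≡ 1 [ZMOD (N : ℤ)]) (δ : (ZMod r)ˣ) :
    psi S (hZero hq hrq E * δ) = psi S δ := by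
  have hN0 := natCast_ne_zero_of_not_dvd hrN
  have hcop : IsCoprime ((N : ℤ) * r) (lift1 N (δ : ZMod r)) :=
    isCoprime_mul_of (lift1_modEq N _) (by rw [lift1_cast hN0]; exact δ.ne_zero)
  have h1 := S.unit_sq ((N : ℤ) * r) (lift1 N (δ : ZMod r)) E (dvd_mul_right _ _)
    (lift1_modEq N _) (IsCoprime.mul_right hcop (isCoprime_Nr_q hq hqN hrq)) hE
  have h2 : lift1 N (δ : ZMod r) * (q : ℤ) ^ (2 * E) ≡ 1 [ZMOD (N : ℤ)] := by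
    have : (q : ℤ) ^ (2 * E) ≡ 1 [ZMOD (N : ℤ)] := by
      rw [mul_comm, pow_mul]
      simpa using hE.pow 2
    simpa using (lift1_modEq N (δ : ZMod r)).mul this
  rw [← M_eq_psi S hrN h2 (hZero hq hrq E * δ), h1]
  · rfl
  · push_cast
    rw [lift1_cast hN0, hZero_val, mul_comm]

end PsiRel

section PsiE

variable {N q p : ℕ} (S : Symbol1 N q (ZMod p)) {r : ℕ} [Fact r.Prime]

/-- Arithmetic choice for (E): a prime `x₀` and an exponent `k`. -/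
lemma exists_x0_k (hq : q.Prime) (hrq : r ≠ q) (hr2 : 2 < r) (E : ℕ)
    (hE : (q : ℤ) ^ E ≡ 1 [ZMOD ((N : ℤ) ^ 2)]) (B : ℕ) (a : (ZMod r)ˣ) :
    ∃ x₀ k : ℕ, x₀.Prime ∧ B < x₀ ∧ (x₀ : ZMod r) = a ∧
      (q : ℤ) ^ k ≡ 1 [ZMOD ((N : ℤ) ^ 2)] ∧
      (q : ℤ) ^ (2 * k) ≡ 1 [ZMOD (x₀ : ℤ)] ∧
      (((q : ℤ) ^ (2 * k) : ℤ) : ZMod r) = (hZero hq hrq E : (ZMod r)ˣ) := by
  have hr : r.Prime := Fact.out
  have hr0 : r ≠ 0 := hr.ne_zero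
  -- Dirichlet
  have hm₁ : 4 * (r - 1) ≠ 0 := by omega
  have hcop : Nat.Coprime (4 * (r - 1)) r := by
    apply Nat.Coprime.symm
    rw [Nat.Prime.coprime_iff_not_dvd hr]
    intro h
    rcases (Nat.Prime.dvd_mul hr).mp h with h4 | h4
    · have : r ∣ 2 ^ 2 := by simpa using h4
      have := (Nat.prime_dvd_prime_iff_eq hr Nat.prime_two).mp (hr.dvd_of_dvd_pow this)
      omega
    · have := Nat.le_of_dvd (by omega) h4
      omega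
  have ha₁ : Nat.Coprime (4 * (r - 1) - 1) (4 * (r - 1)) := by
    have h : 4 * (r - 1) = (4 * (r - 1) - 1) + 1 := by omega
    rw [h]
    simp
  have ha₂ : Nat.Coprime (a : ZMod r).val r := ZMod.val_coe_unit_coprime a
  obtain ⟨x₀, hx₀B, hx₀p, hx₀a, hx₀b⟩ :=
    exists_prime_gt_modEq_modEq (max B q) hm₁ hr0 hcop ha₁ ha₂
  have hx₀q : x₀ ≠ q := by
    have := le_max_right B q
    omega
  have hx₀B' : B < x₀ := lt_of_le_of_lt (le_max_left B q) hx₀B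
  -- x₀ + 1 = 4 (r-1) J
  obtain ⟨J, hJ⟩ : 4 * (r - 1) ∣ x₀ + 1 := by
    have := hx₀a.add_right 1
    have h : 4 * (r - 1) - 1 + 1 = 4 * (r - 1) := by omega
    rw [h] at this
    exact (Nat.modEq_zero_iff_dvd.mp (this.trans (by simp [Nat.ModEq])))
  -- k₁
  obtain ⟨k₁, hk₁⟩ : ∃ k₁, x₀ = 2 * k₁ + 1 := by
    refine ⟨2 * ((r - 1) * J) - 1, ?_⟩
    have : x₀ + 1 = 4 * ((r - 1) * J) := by rw [hJ]; ring
    have hpos : 0 < (r - 1) * J := by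
      rcases Nat.eq_zero_or_pos ((r - 1) * J) with h0 | h0
      · rw [h0] at this; omega
      · exact h0
    omega
  have hk₁ρ : Nat.Coprime k₁ (r - 1) := by
    have hdvd : (r - 1) ∣ k₁ + 1 := by
      refine ⟨2 * J, ?_⟩
      have : x₀ + 1 = 4 * ((r - 1) * J) := by rw [hJ]; ring
      have h2 : 2 * (k₁ + 1) = 2 * ((r - 1) * (2 * J)) := by rw [hk₁] at this; linarith
      exact Nat.eq_of_mul_eq_mul_left (by norm_num) h2
    exact Nat.Coprime.coprime_dvd_right hdvd (by simp)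
  obtain ⟨m, -, hm⟩ := Nat.exists_mul_mod_eq_one_of_coprime hk₁ρ (by omega)
  have hkm : k₁ * m = (r - 1) * (k₁ * m / (r - 1)) + 1 := by
    have := Nat.div_add_mod (k₁ * m) (r - 1)
    rw [hm] at this
    exact this.symm
  set w := k₁ * m / (r - 1) with hw
  refine ⟨x₀, E * (k₁ * m), hx₀p, hx₀B', ?_, ?_, ?_, ?_⟩
  · -- residue of x₀ mod r
    have := (ZMod.natCast_eq_natCast_iff x₀ (a : ZMod r).val r).mpr hx₀b
    rw [this, ZMod.natCast_zmod_val]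
  · rw [pow_mul]
    simpa using hE.pow (k₁ * m)
  · -- Fermat mod x₀
    have : Fact x₀.Prime := ⟨hx₀p⟩
    rw [← ZMod.intCast_eq_intCast_iff]
    push_cast
    have hq0 : (q : ZMod x₀) ≠ 0 := by
      rw [Ne, ZMod.natCast_eq_zero_iff]
      intro h
      exact hx₀q ((Nat.prime_dvd_prime_iff_eq hx₀p hq).mp h)
    have hF := ZMod.pow_card_sub_one_eq_one hq0
    have hx : x₀ - 1 = 2 * k₁ := by omega
    rw [hx] at hF
    have : 2 * (E * (k₁ * m)) = (2 * k₁) * (E * m) := by ring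
    rw [this, pow_mul, hF, one_pow]
  · -- residue of h mod r
    push_cast
    have hF := ZMod.units_pow_card_sub_one_eq_one r (hZero hq hrq E)
    have h1 : (q : ZMod r) ^ (2 * (E * (k₁ * m))) = ((q : ZMod r) ^ (2 * E)) ^ (k₁ * m) := by
      rw [← pow_mul]
      congr 1
      ring
    rw [h1, ← hZero_val hq hrq E, hkm, pow_succ, pow_mul, ← Units.val_pow_eq_pow_val,
      ← Units.val_pow_eq_pow_val, hF, one_pow, Units.val_one, one_mul]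

/-- Relation (E) for `ψ_r`. -/
lemma psi_E (hN : 0 < N) (hq : q.Prime) (hqN : ¬ q ∣ N) (hrN : ¬ r ∣ N) (hrq : r ≠ q)
    (hr2 : 2 < r) (E : ℕ) (hE : (q : ℤ) ^ E ≡ 1 [ZMOD ((N : ℤ) ^ 2)])
    (ξ s t₁ t₂ : (ZMod r)ˣ) (ht₁ : (t₁ : ZMod r) = 1 - s)
    (ht₂ : (t₂ : ZMod r) = 1 - (hZero hq hrq E : (ZMod r)ˣ) * s) :
    psi S (ξ * (hZero hq hrq E * s) * t₂⁻¹) - psi S (ξ * t₂⁻¹)
      = psi S (ξ * s * t₁⁻¹) - psi S (ξ * t₁⁻¹) := by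
  have hr : r.Prime := Fact.out
  have hN0 : (N : ZMod r) ≠ 0 := natCast_ne_zero_of_not_dvd hrN
  set h₀ : (ZMod r)ˣ := hZero hq hrq E with hh₀
  set Nu : (ZMod r)ˣ := Units.mk0 (N : ZMod r) hN0 with hNu
  -- arithmetic data
  obtain ⟨x₀, k, hx₀p, hx₀B, hx₀r, hkN2, hkx₀, hkr⟩ :=
    exists_x0_k (N := N) hq hrq hr2 E hE (max N (max q r)) (ξ * Nu⁻¹)
  have hx₀N : N < x₀ := lt_of_le_of_lt (le_max_left _ _) hx₀B
  have hx₀q : q < x₀ := lt_of_le_of_lt ((le_max_left _ _).trans (le_max_right _ _)) hx₀B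
  have hx₀rr : r < x₀ := lt_of_le_of_lt ((le_max_right _ _).trans (le_max_right _ _)) hx₀B
  set h : ℤ := (q : ℤ) ^ (2 * k) with hh
  set c : ℤ := (N : ℤ) * r with hc
  set x : ℤ := (N : ℤ) * x₀ with hx
  have hNc : (N : ℤ) ∣ c := dvd_mul_right _ _
  have hNx : (N : ℤ) ∣ x := dvd_mul_right _ _
  have hkN : (q : ℤ) ^ k ≡ 1 [ZMOD (N : ℤ)] := hkN2.of_dvd (dvd_pow_self _ two_ne_zero)
  have hhN2 : h ≡ 1 [ZMOD ((N : ℤ) ^ 2)] := by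
    rw [hh, mul_comm, pow_mul]
    simpa using hkN2.pow 2
  -- κ
  have hcopNx : IsCoprime ((N : ℤ) ^ 2) (x₀ : ℤ) := by
    apply IsCoprime.pow_left
    apply Nat.isCoprime_iff_coprime.mpr
    apply Nat.Coprime.symm
    rw [Nat.Prime.coprime_iff_not_dvd hx₀p]
    intro hd
    have := Nat.le_of_dvd hN hd
    omega
  obtain ⟨κ₀, hκ₀⟩ : (N : ℤ) ^ 2 * x₀ ∣ 1 - h :=
    IsCoprime.mul_dvd hcopNx (Int.modEq_iff_dvd.mp hhN2) (Int.modEq_iff_dvd.mp hkx₀)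
  set κ : ℤ := (N : ℤ) * κ₀ with hκdef
  have hκ : κ * x = 1 - h := by rw [hκ₀, hκdef, hx]; ring
  -- casts mod r
  have hxr : ((x : ℤ) : ZMod r) = ξ := by
    have hv : ((ξ * Nu⁻¹ : (ZMod r)ˣ) : ZMod r) = ξ * (N : ZMod r)⁻¹ := by
      rw [Units.val_mul, Units.val_inv_eq_inv_val, hNu, Units.val_mk0]
    rw [hx]
    push_cast
    rw [hx₀r, hv, mul_comm (ξ : ZMod r), ← mul_assoc, mul_inv_cancel₀ hN0, one_mul]
  have hhr : ((h : ℤ) : ZMod r) = h₀ := hkr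
  have hκr : ((κ : ℤ) : ZMod r) * ξ = 1 - h₀ := by
    have := congrArg (fun z : ℤ => (z : ZMod r)) hκ
    simp only [Int.cast_mul, Int.cast_sub, Int.cast_one] at this
    rw [hxr, hhr] at this
    exact this
  have hcr : ((c : ℤ) : ZMod r) = 0 := by
    rw [hc]
    push_cast
    simp
  -- D₁, a₁, b₁
  set δ₁ : (ZMod r)ˣ := ξ * t₁⁻¹ with hδ₁
  set D₁ : ℤ := lift1 N (δ₁ : ZMod r) with hD₁def
  have hD₁ : D₁ ≡ 1 [ZMOD (N : ℤ)] := lift1_modEq N _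
  have hD₁r : ((D₁ : ℤ) : ZMod r) = δ₁ := lift1_cast hN0 _
  have hcD₁ : IsCoprime c D₁ := isCoprime_mul_of hD₁ (by rw [hD₁r]; exact δ₁.ne_zero)
  obtain ⟨u, a₁, hua⟩ := hcD₁
  have h1 : a₁ * D₁ - (-u) * c = 1 := by linarith
  have ha₁r : ((a₁ : ℤ) : ZMod r) * δ₁ = 1 := by
    have := congrArg (fun z : ℤ => (z : ZMod r)) hua
    simp only [Int.cast_mul, Int.cast_add, Int.cast_one] at this
    rw [hcr, hD₁r, mul_zero, zero_add] at this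
    exact this
  have ha₁N : a₁ ≡ 1 [ZMOD (N : ℤ)] := by
    obtain ⟨e, he⟩ := hNc
    obtain ⟨f, hf⟩ := Int.modEq_iff_dvd.mp hD₁
    apply Int.modEq_iff_dvd.mpr
    refine ⟨u * e - a₁ * f, ?_⟩
    have : a₁ * D₁ = a₁ * (1 - N * f) := by rw [show D₁ = 1 - N * f by linarith]
    rw [he] at hua
    linear_combination this - hua
  -- a₁'
  set a₁' : ℤ := κ + h * a₁ with ha₁'def
  have ha₁'N : a₁' ≡ 1 [ZMOD (N : ℤ)] := by
    have hκN : κ ≡ 0 [ZMOD (N : ℤ)] := by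
      apply Int.modEq_iff_dvd.mpr
      rw [zero_sub, hκdef]
      exact ⟨-κ₀, by ring⟩
    have hhN : h ≡ 1 [ZMOD (N : ℤ)] := hhN2.of_dvd (dvd_pow_self _ two_ne_zero)
    have := hκN.add (hhN.mul ha₁N)
    simpa [ha₁'def] using this
  have hv1 : ((ξ * t₁⁻¹ : (ZMod r)ˣ) : ZMod r) = ξ * (t₁ : ZMod r)⁻¹ := by
    rw [Units.val_mul, Units.val_inv_eq_inv_val]
  have hv2 : ((ξ * t₂⁻¹ : (ZMod r)ˣ) : ZMod r) = ξ * (t₂ : ZMod r)⁻¹ := by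
    rw [Units.val_mul, Units.val_inv_eq_inv_val]
  have hv3 : ((ξ * s * t₁⁻¹ : (ZMod r)ˣ) : ZMod r) = ξ * s * (t₁ : ZMod r)⁻¹ := by
    rw [Units.val_mul, Units.val_mul, Units.val_inv_eq_inv_val]
  have hv4 : ((ξ * (h₀ * s) * t₂⁻¹ : (ZMod r)ˣ) : ZMod r)
      = ξ * ((h₀ : ZMod r) * s) * (t₂ : ZMod r)⁻¹ := by
    rw [Units.val_mul, Units.val_mul, Units.val_mul, Units.val_inv_eq_inv_val]
  have et₁ : (t₁ : ZMod r) * (t₁ : ZMod r)⁻¹ = 1 := mul_inv_cancel₀ t₁.ne_zero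
  have et₂ : (t₂ : ZMod r) * (t₂ : ZMod r)⁻¹ = 1 := mul_inv_cancel₀ t₂.ne_zero
  have e1 : ((a₁ : ℤ) : ZMod r) * ξ = t₁ := by
    have h3 : ((a₁ : ℤ) : ZMod r) * ((ξ : ZMod r) * (t₁ : ZMod r)⁻¹) = 1 := by
      rw [← hv1]; exact ha₁r
    linear_combination (t₁ : ZMod r) * h3 - ((a₁ : ℤ) : ZMod r) * (ξ : ZMod r) * et₁
  have ha₁'r : ((a₁' : ℤ) : ZMod r) * (ξ * t₂⁻¹ : (ZMod r)ˣ) = 1 := by
    rw [hv2, ha₁'def]
    push_cast
    rw [hhr]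
    calc (((κ : ℤ) : ZMod r) + (h₀ : ZMod r) * ((a₁ : ℤ) : ZMod r)) *
          ((ξ : ZMod r) * (t₂ : ZMod r)⁻¹)
        = (((κ : ℤ) : ZMod r) * ξ + (h₀ : ZMod r) * (((a₁ : ℤ) : ZMod r) * ξ)) *
          (t₂ : ZMod r)⁻¹ := by ring
      _ = (t₂ : ZMod r) * (t₂ : ZMod r)⁻¹ := by
          rw [hκr, e1, ht₁, ht₂]; ring
      _ = 1 := et₂
  have ha₁'r0 : ((a₁' : ℤ) : ZMod r) ≠ 0 := by
    intro h0
    rw [h0, zero_mul] at ha₁'r
    exact zero_ne_one ha₁'r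
  have hca₁' : IsCoprime c a₁' := isCoprime_mul_of ha₁'N ha₁'r0
  obtain ⟨u', D₁', hu'⟩ := hca₁'
  have h1' : a₁' * D₁' - (-u') * c = 1 := by linarith
  have hD₁'N : D₁' ≡ 1 [ZMOD (N : ℤ)] := by
    obtain ⟨e, he⟩ := hNc
    obtain ⟨f, hf⟩ := Int.modEq_iff_dvd.mp ha₁'N
    apply Int.modEq_iff_dvd.mpr
    refine ⟨u' * e - D₁' * f, ?_⟩
    have : D₁' * a₁' = D₁' * (1 - N * f) := by rw [show a₁' = 1 - N * f by linarith]
    rw [he] at hu'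
    linear_combination this - hu'
  have hD₁'r : ((D₁' : ℤ) : ZMod r) = (ξ * t₂⁻¹ : (ZMod r)ˣ) := by
    have := congrArg (fun z : ℤ => (z : ZMod r)) hu'
    simp only [Int.cast_mul, Int.cast_add, Int.cast_one] at this
    rw [hcr, mul_zero, zero_add] at this
    -- D₁' * a₁' = 1 and a₁' * (ξ t₂⁻¹) = 1
    calc ((D₁' : ℤ) : ZMod r) = ((D₁' : ℤ) : ZMod r) * (((a₁' : ℤ) : ZMod r) *
          (ξ * t₂⁻¹ : (ZMod r)ˣ)) := by rw [ha₁'r, mul_one]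
      _ = (((D₁' : ℤ) : ZMod r) * ((a₁' : ℤ) : ZMod r)) * (ξ * t₂⁻¹ : (ZMod r)ˣ) := by ring
      _ = (ξ * t₂⁻¹ : (ZMod r)ˣ) := by rw [this, one_mul]
  -- D₃, D₃'
  have hD₃r : (((D₁ - x : ℤ)) : ZMod r) = (ξ * s * t₁⁻¹ : (ZMod r)ˣ) := by
    rw [hv3]
    push_cast
    rw [hD₁r, hxr, hδ₁, hv1]
    have hs : (s : ZMod r) = 1 - t₁ := by rw [ht₁]; ring
    rw [hs]
    linear_combination (ξ : ZMod r) * et₁
  have hD₃'r : (((D₁' - x : ℤ)) : ZMod r) = (ξ * (h₀ * s) * t₂⁻¹ : (ZMod r)ˣ) := by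
    rw [hv4]
    push_cast
    rw [hD₁'r, hxr, hv2]
    have hs : (h₀ : ZMod r) * (s : ZMod r) = 1 - t₂ := by rw [ht₂]; ring
    rw [hs]
    linear_combination (ξ : ZMod r) * et₂
  have hsubN : ∀ D : ℤ, D ≡ 1 [ZMOD (N : ℤ)] → D - x ≡ 1 [ZMOD (N : ℤ)] := by
    intro D hD
    have : D - x ≡ D [ZMOD (N : ℤ)] := by
      apply Int.modEq_iff_dvd.mpr
      simpa using hNx
    exact this.trans hD
  have hcD₃ : IsCoprime c (D₁ - x) :=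
    isCoprime_mul_of (hsubN D₁ hD₁) (by rw [hD₃r]; exact Units.ne_zero _)
  have hcD₃' : IsCoprime c (D₁' - x) :=
    isCoprime_mul_of (hsubN D₁' hD₁'N) (by rw [hD₃'r]; exact Units.ne_zero _)
  -- coprimality of c x with q
  have hcxq : IsCoprime (c * x) (q : ℤ) := by
    apply IsCoprime.mul_left (isCoprime_Nr_q hq hqN hrq)
    rw [hx]
    apply IsCoprime.mul_left
    · exact Nat.isCoprime_iff_coprime.mpr ((Nat.Prime.coprime_iff_not_dvd hq).mpr hqN).symm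
    · apply Nat.isCoprime_iff_coprime.mpr
      rw [Nat.coprime_primes hx₀p hq]
      omega
  -- the key relation
  have key := S.keyRel (k := k) hNc h1 hD₁ hNx hcD₃ hkN hκ hcxq h1' hD₁'N hcD₃'
  rw [M_eq_psi S hrN (hsubN D₁' hD₁'N) _ hD₃'r, M_eq_psi S hrN hD₁'N _ hD₁'r,
    M_eq_psi S hrN (hsubN D₁ hD₁) _ hD₃r, M_eq_psi S hrN hD₁ _ hD₁r] at key
  exact key

/-- **Step 2 + Step 3**: vanishing of the symbol at a good prime level `N r`. -/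
theorem M_prime_level_eq_zero [Fact p.Prime] (hN : 0 < N) (hq : q.Prime) (hqN : ¬ q ∣ N)
    (hrN : ¬ r ∣ N) (hrq : r ≠ q) (hr2 : 2 < r) (E : ℕ)
    (hE : (q : ℤ) ^ E ≡ 1 [ZMOD ((N : ℤ) ^ 2)])
    (hh₀ : (q : ZMod r) ^ (2 * E) ≠ 1) (hpr : ¬ p ∣ r - 1) {D : ℤ}
    (hD : D ≡ 1 [ZMOD (N : ℤ)]) (hDr : ((D : ℤ) : ZMod r) ≠ 0) :
    S.M ((N : ℤ) * r) D = 0 := by
  have hEN : (q : ℤ) ^ E ≡ 1 [ZMOD (N : ℤ)] := hE.of_dvd (dvd_pow_self _ two_ne_zero)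
  have hne : hZero (r := r) hq hrq E ≠ 1 := by
    intro h
    apply hh₀
    rw [← hZero_val hq hrq E, h, Units.val_one]
  have key := eq_zero_of_relations hpr (psi S) (hZero hq hrq E) hne (psi_one S hrN)
    (fun δ => psi_hZero S hq hqN hrN hrq E hEN δ)
    (fun ξ s t₁ t₂ ht₁ ht₂ => psi_E S hN hq hqN hrN hrq hr2 E hE ξ s t₁ t₂ ht₁ ht₂)
  rw [M_eq_psi S hrN hD (Units.mk0 _ hDr) rfl]
  exact key _

end PsiE

end Fermat.Agent.S41lib.CSP
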