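import Mathlib

/-!
# S41 / CSP block (route K1): the abstract integral symbol

`Symbol1 N q A` axiomatises the function `M c d := φ γ`, `γ ∈ Γ₁(N) ≤ SL(2,ℤ)` any element with
bottom row `(c, d)` (`N ∣ c`, `d ≡ 1 mod N`, `gcd (c, d) = 1`), for a homomorphism `φ` which
kills `E₁₂(1)`, `E₂₁(N)` and is invariant under `d ↦ d q^{2k}` (`q^k ≡ 1 mod N`).

* `add_right` : (P1)  `M c (d + x c) = M c d`
* `add_left`  : (P2)  `M (c + N y d) d = M c d`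
* `len2`      : (L2)  bottom row of `g₃ g₁⁻¹`
* `unit_sq`   : (P3ℤ) `M C (D q^{2k}) = M C D`

The key relation (KR) is `Symbol1.keyRel`.
-/

set_option autoImplicit false

namespace Fermat.Agent.S41lib.CSP

/-- The abstract integral symbol attached to a homomorphism on `Γ₁(N)` coming from
`Γ₁(N)(ℤ[1/q])`. -/
structure Symbol1 (N q : ℕ) (A : Type*) [AddCommGroup A] where
  /-- the symbol -/
  M : ℤ → ℤ → A
  add_right : ∀ c d x : ℤ, (N : ℤ) ∣ c → d ≡ 1 [ZMOD (N : ℤ)] → IsCoprime c d →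
    M c (d + x * c) = M c d
  add_left : ∀ c d y : ℤ, (N : ℤ) ∣ c → d ≡ 1 [ZMOD (N : ℤ)] → IsCoprime c d →
    M (c + N * y * d) d = M c d
  len2 : ∀ a₁ b₁ c D₁ D₃ : ℤ, (N : ℤ) ∣ c → a₁ * D₁ - b₁ * c = 1 → D₁ ≡ 1 [ZMOD (N : ℤ)] →
    D₃ ≡ 1 [ZMOD (N : ℤ)] → IsCoprime c D₃ →
    M (c * (D₁ - D₃)) (1 - a₁ * (D₁ - D₃)) = M c D₃ - M c D₁
  unit_sq : ∀ (C D : ℤ) (k : ℕ), (N : ℤ) ∣ C → D ≡ 1 [ZMOD (N : ℤ)] → IsCoprime C (D * q) →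
    (q : ℤ) ^ k ≡ 1 [ZMOD (N : ℤ)] → M C (D * (q : ℤ) ^ (2 * k)) = M C D
  zero_one : M 0 1 = 0

namespace Symbol1

variable {N q : ℕ} {A : Type*} [AddCommGroup A] (S : Symbol1 N q A)

/-- (P1) in congruence form. -/
lemma congr_right {c d d' : ℤ} (hc : (N : ℤ) ∣ c) (hd : d ≡ 1 [ZMOD (N : ℤ)])
    (hcd : IsCoprime c d) (h : d' ≡ d [ZMOD c]) : S.M c d' = S.M c d := by
  obtain ⟨x, hx⟩ := (Int.modEq_iff_dvd.mp h.symm)
  have : d' = d + x * c := by linarith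
  rw [this, S.add_right c d x hc hd hcd]

/-- `M c 1 = 0`. -/
lemma M_one {c : ℤ} (hc : (N : ℤ) ∣ c) : S.M c 1 = 0 := by
  obtain ⟨y, rfl⟩ := hc
  have := S.add_left 0 1 y (dvd_zero _) (Int.ModEq.refl _) (isCoprime_zero_left.mpr isUnit_one)
  rw [zero_add, mul_one, S.zero_one] at this
  exact this

/-- **Key relation (KR).** Keep the difference `x`, multiply the ratio by `h = q^{2k}`. -/
theorem keyRel {c a₁ b₁ D₁ x κ : ℤ} {k : ℕ} {b₁' D₁' : ℤ}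
    (hc : (N : ℤ) ∣ c) (h1 : a₁ * D₁ - b₁ * c = 1) (hD₁ : D₁ ≡ 1 [ZMOD (N : ℤ)])
    (hx : (N : ℤ) ∣ x) (hD₃ : IsCoprime c (D₁ - x)) (hk : (q : ℤ) ^ k ≡ 1 [ZMOD (N : ℤ)])
    (hκ : κ * x = 1 - (q : ℤ) ^ (2 * k)) (hcxq : IsCoprime (c * x) (q : ℤ))
    (h1' : (κ + (q : ℤ) ^ (2 * k) * a₁) * D₁' - b₁' * c = 1) (hD₁' : D₁' ≡ 1 [ZMOD (N : ℤ)])
    (hD₃' : IsCoprime c (D₁' - x)) :
    S.M c (D₁' - x) - S.M c D₁' = S.M c (D₁ - x) - S.M c D₁ := by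
  have hsub : ∀ D : ℤ, D ≡ 1 [ZMOD (N : ℤ)] → D - x ≡ 1 [ZMOD (N : ℤ)] := by
    intro D hD
    have : D - x ≡ D [ZMOD (N : ℤ)] := by
      apply Int.modEq_iff_dvd.mpr
      simpa using hx
    exact this.trans hD
  have e1 := S.len2 a₁ b₁ c D₁ (D₁ - x) hc h1 hD₁ (hsub D₁ hD₁) hD₃
  have e2 := S.len2 (κ + (q : ℤ) ^ (2 * k) * a₁) b₁' c D₁' (D₁' - x) hc h1' hD₁'
    (hsub D₁' hD₁') hD₃'
  rw [sub_sub_cancel] at e1 e2
  -- coprimality of the row (c x, 1 - a₁ x)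
  have hcop : IsCoprime (c * x) (1 - a₁ * x) := by
    obtain ⟨u, v, huv⟩ := hD₃
    refine ⟨v * b₁ + u * a₁, v * D₁ + u * c, ?_⟩
    linear_combination huv - v * x * h1
  have hD : (1 - a₁ * x) ≡ 1 [ZMOD (N : ℤ)] := by
    apply Int.modEq_iff_dvd.mpr
    have : (1 : ℤ) - (1 - a₁ * x) = a₁ * x := by ring
    rw [this]
    exact Dvd.dvd.mul_left hx _
  have e3 := S.unit_sq (c * x) (1 - a₁ * x) k (Dvd.dvd.mul_right hc _) hD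
    (IsCoprime.mul_right hcop hcxq) hk
  have e4 : 1 - (κ + (q : ℤ) ^ (2 * k) * a₁) * x = (1 - a₁ * x) * (q : ℤ) ^ (2 * k) := by
    linear_combination (-1 : ℤ) * hκ
  rw [e4, e3] at e2
  rw [← e1, ← e2]

end Symbol1

end Fermat.Agent.S41lib.CSP
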